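/-
PROJECT R (S43, row 37), block L3 (Hecke modules, leader helper24), brick H6 (helper20),
commutation, abstract half.

`Γ` any group, `ι : Γ →* G`, coset data of `S30/Hecke/DoubleCoset`, nebentypus data and the
double-coset operators `heckeZ`, `heckeH` of `Hecke/Defs`.

* `compData D₁ D₂ : CosetData ι (X₁ × X₂)`: the composite coset datum, representatives
  `D₂.rep y * D₁.rep x`; `compNeb ν₁ ν₂` its nebentypus `ψ₁ x * ψ₂ y`;
  `heckeZ_compNeb`: its double-coset operator IS the composite `T_{ν₁} ∘ T_{ν₂}`, on cocycles;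
* `heckeZ_of_reps`, `heckeH_eq_of_reps`: **independence of the representatives with nebentypus**:
  if `D'.rep (e x) = ι (u x) * D.rep x` and `ψ' (e x) = χ (u x) * ψ x` then `T' c = T c - ∂ a`,
  `a = ∑ x, ψ' (e x)⁻¹ • c (u x)`; so the two operators agree on `H¹`;
* `heckeH_eq_of_exists`: the counting form (both families separated, same cardinality, existence
  in one direction);
* `heckeH_comm_of_exists`: the criterion for `T_{ν₁} T_{ν₂} = T_{ν₂} T_{ν₁}` on `H¹`.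
-/
import Mathlib
import Fermat.Agent.S30.Hecke.DoubleCoset
import Fermat.Agent.S30.Hecke.DoubleCosetIndep
import Fermat.Agent.S43.Hecke.Defs

set_option autoImplicit false

open scoped BigOperators

namespace Fermat.Agent.S43.Hecke.Inst.Compose

open Fermat.Agent.S30.Hecke.DoubleCoset Fermat.Agent.S43.Hecke.Defs

universe u v w

variable {Γ : Type v} [Group Γ] {G : Type*} [Group G] {ι : Γ →* G}

/-! ### the composite coset datum -/

section CompData

variable {X₁ X₂ : Type*} (D₁ : CosetData ι X₁) (D₂ : CosetData ι X₂)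

/-- **the composite coset datum**: representatives `D₂.rep y * D₁.rep x`. -/
def compData : CosetData ι (X₁ × X₂) where
  rep z := D₂.rep z.2 * D₁.rep z.1
  perm g := Equiv.prodShear (D₁.perm g) (fun x => D₂.perm (D₁.coc g x))
  coc g z := D₂.coc (D₁.coc g z.1) z.2
  rel g z := by
    show D₂.rep z.2 * D₁.rep z.1 * ι g = ι (D₂.coc (D₁.coc g z.1) z.2) *
      (D₂.rep (D₂.perm (D₁.coc g z.1) z.2) * D₁.rep (D₁.perm g z.1))
    rw [mul_assoc, D₁.rel, ← mul_assoc, D₂.rel, mul_assoc]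
  perm_mul g h z := by
    show (D₁.perm (g * h) z.1, D₂.perm (D₁.coc (g * h) z.1) z.2) =
      (D₁.perm h (D₁.perm g z.1),
        D₂.perm (D₁.coc h (D₁.perm g z.1)) (D₂.perm (D₁.coc g z.1) z.2))
    rw [D₁.perm_mul, D₁.coc_mul, D₂.perm_mul]
  coc_mul g h z := by
    show D₂.coc (D₁.coc (g * h) z.1) z.2 = D₂.coc (D₁.coc g z.1) z.2 *
      D₂.coc (D₁.coc h (D₁.perm g z.1)) (D₂.perm (D₁.coc g z.1) z.2)
    rw [D₁.coc_mul, D₂.coc_mul]

@[simp] theorem compData_rep (z : X₁ × X₂) :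
    (compData D₁ D₂).rep z = D₂.rep z.2 * D₁.rep z.1 := rfl

@[simp] theorem compData_coc (g : Γ) (z : X₁ × X₂) :
    (compData D₁ D₂).coc g z = D₂.coc (D₁.coc g z.1) z.2 := rfl

@[simp] theorem compData_perm (g : Γ) (z : X₁ × X₂) :
    (compData D₁ D₂).perm g z = (D₁.perm g z.1, D₂.perm (D₁.coc g z.1) z.2) := rfl

variable {D₁ D₂} {R : Type u} [CommRing R] {χ : Γ →* Rˣ}

/-- the nebentypus of the composite datum. -/
def compNeb (ν₁ : Neb D₁ χ) (ν₂ : Neb D₂ χ) : Neb (compData D₁ D₂) χ where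
  ψ z := ν₁.ψ z.1 * ν₂.ψ z.2
  rel g z := by
    show ν₁.ψ z.1 * ν₂.ψ z.2 * χ g = χ (D₂.coc (D₁.coc g z.1) z.2) *
      (ν₁.ψ (D₁.perm g z.1) * ν₂.ψ (D₂.perm (D₁.coc g z.1) z.2))
    have h1 := ν₁.rel g z.1
    have h2 := ν₂.rel (D₁.coc g z.1) z.2
    calc ν₁.ψ z.1 * ν₂.ψ z.2 * χ g = ν₂.ψ z.2 * (ν₁.ψ z.1 * χ g) := by
          rw [mul_comm (ν₁.ψ z.1), mul_assoc]
      _ = ν₂.ψ z.2 * χ (D₁.coc g z.1) * ν₁.ψ (D₁.perm g z.1) := by rw [h1, mul_assoc]
      _ = _ := by rw [h2, mul_assoc, mul_comm (ν₂.ψ _)]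

@[simp] theorem compNeb_psi (ν₁ : Neb D₁ χ) (ν₂ : Neb D₂ χ) (z : X₁ × X₂) :
    (compNeb ν₁ ν₂).ψ z = ν₁.ψ z.1 * ν₂.ψ z.2 := rfl

variable [Fintype X₁] [Fintype X₂] {A : Type w} [AddCommGroup A] [Module R A]

/-- **the double-coset operator of the composite datum is the composite**, on cocycles. -/
theorem heckeZ_compNeb (ν₁ : Neb D₁ χ) (ν₂ : Neb D₂ χ) (c : Z1 χ A) :
    heckeZ A (compNeb ν₁ ν₂) c = heckeZ A ν₁ (heckeZ A ν₂ c) := by
  apply Subtype.ext
  funext g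
  rw [heckeZ_apply, heckeZ_apply, Fintype.sum_prod_type]
  refine Finset.sum_congr rfl fun x _ => ?_
  rw [heckeZ_apply, Finset.smul_sum]
  refine Finset.sum_congr rfl fun y _ => ?_
  show ((((ν₁.ψ x * ν₂.ψ y)⁻¹ : Rˣ) : R)) • (c : Γ → A) (D₂.coc (D₁.coc g x) y) = _
  rw [mul_inv, Units.val_mul, mul_smul]

/-- the same on `H¹`. -/
theorem heckeH_compNeb (ν₁ : Neb D₁ χ) (ν₂ : Neb D₂ χ) (ξ : H1 χ A) :
    heckeH A (compNeb ν₁ ν₂) ξ = heckeH A ν₁ (heckeH A ν₂ ξ) := by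
  obtain ⟨c, rfl⟩ := H1.mk_surjective ξ
  rw [heckeH_mk, heckeH_mk, heckeH_mk, heckeZ_compNeb]

end CompData

/-! ### independence of the representatives, with nebentypus -/

section Indep

variable {X X' : Type*} [Fintype X] [Fintype X'] {D : CosetData ι X} {D' : CosetData ι X'}
  {R : Type u} [CommRing R] {χ : Γ →* Rˣ} (ν : Neb D χ) (ν' : Neb D' χ)
  {A : Type w} [AddCommGroup A] [Module R A]

omit [Fintype X] [Fintype X'] in
/-- the value of a cocycle at `u * k * v⁻¹`. -/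
theorem Z1_mul_mul_inv (c : Z1 χ A) (a k b : Γ) :
    (c : Γ → A) (a * k * b⁻¹) =
      (c : Γ → A) a + ((χ a : Rˣ) : R) • (c : Γ → A) k -
        ((χ (a * k * b⁻¹) : Rˣ) : R) • (c : Γ → A) b := by
  have h := Z1.mul c (a * k * b⁻¹) b
  rw [inv_mul_cancel_right, Z1.mul c a k] at h
  exact eq_sub_of_add_eq h.symm

/-- **two coset data with twisted representatives and compatible nebentypus data: the double-coset
operators differ by an explicit coboundary.** -/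
theorem heckeZ_of_reps (e : X ≃ X') (t : X → Γ)
    (hperm : ∀ g x, D'.perm g (e x) = e (D.perm g x))
    (hcoc : ∀ g x, D'.coc g (e x) = t x * D.coc g x * (t (D.perm g x))⁻¹)
    (hψ : ∀ x, ν'.ψ (e x) = χ (t x) * ν.ψ x) (c : Z1 χ A) :
    heckeZ A ν' c = heckeZ A ν c -
      dZero χ A (∑ x, (((ν'.ψ (e x))⁻¹ : Rˣ) : R) • (c : Γ → A) (t x)) := by
  apply Subtype.ext
  funext g
  set a : A := ∑ x, (((ν'.ψ (e x))⁻¹ : Rˣ) : R) • (c : Γ → A) (t x) with ha
  rw [Submodule.coe_sub, Pi.sub_apply, dZero_apply, heckeZ_apply, heckeZ_apply,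
    ← Equiv.sum_comp e]
  have h1 : ∀ x, (((ν'.ψ (e x))⁻¹ : Rˣ) : R) • (c : Γ → A) (D'.coc g (e x)) =
      (((ν'.ψ (e x))⁻¹ : Rˣ) : R) • (c : Γ → A) (t x) +
        (((ν.ψ x)⁻¹ : Rˣ) : R) • (c : Γ → A) (D.coc g x) -
        ((χ g : Rˣ) : R) • ((((ν'.ψ (e (D.perm g x)))⁻¹ : Rˣ) : R) •
          (c : Γ → A) (t (D.perm g x))) := by
    intro x
    have e1 : (ν'.ψ (e x))⁻¹ * χ (t x) = (ν.ψ x)⁻¹ := by
      rw [hψ, mul_inv, mul_comm ((χ (t x))⁻¹), mul_assoc, inv_mul_cancel, mul_one]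
    have e2 : (ν'.ψ (e x))⁻¹ * χ (D'.coc g (e x)) = χ g * (ν'.ψ (e (D.perm g x)))⁻¹ := by
      have h := ν'.rel g (e x)
      rw [hperm] at h
      rw [inv_mul_eq_iff_eq_mul, ← mul_assoc, eq_mul_inv_iff_mul_eq]
      exact h.symm
    have e3 := Z1_mul_mul_inv c (t x) (D.coc g x) (t (D.perm g x))
    rw [← hcoc] at e3
    rw [e3, smul_sub, smul_add, ← mul_smul, ← mul_smul, ← mul_smul, ← Units.val_mul,
      ← Units.val_mul, ← Units.val_mul, e1, e2]
  rw [Finset.sum_congr rfl fun x _ => h1 x, Finset.sum_sub_distrib, Finset.sum_add_distrib,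
    ← Finset.smul_sum,
    Equiv.sum_comp (D.perm g)
      (fun y => (((ν'.ψ (e y))⁻¹ : Rˣ) : R) • (c : Γ → A) (t y))]
  abel

/-- the same on `H¹`: the operators agree. -/
theorem heckeH_of_reps (e : X ≃ X') (t : X → Γ)
    (hperm : ∀ g x, D'.perm g (e x) = e (D.perm g x))
    (hcoc : ∀ g x, D'.coc g (e x) = t x * D.coc g x * (t (D.perm g x))⁻¹)
    (hψ : ∀ x, ν'.ψ (e x) = χ (t x) * ν.ψ x) (ξ : H1 χ A) :
    heckeH A ν' ξ = heckeH A ν ξ := by
  obtain ⟨c, rfl⟩ := H1.mk_surjective ξ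
  rw [heckeH_mk, heckeH_mk, heckeZ_of_reps ν ν' e t hperm hcoc hψ c, map_sub,
    (H1.mk_eq_zero_iff _).mpr ⟨_, rfl⟩, sub_zero]

/-- **independence of the representatives, with nebentypus.** -/
theorem heckeH_eq_of_reps (hι : Function.Injective ι)
    (hsep' : ∀ (x x' : X') (g : Γ), D'.rep x = ι g * D'.rep x' → x = x')
    (e : X ≃ X') (t : X → Γ) (hrep : ∀ x, D'.rep (e x) = ι (t x) * D.rep x)
    (hψ : ∀ x, ν'.ψ (e x) = χ (t x) * ν.ψ x) (ξ : H1 χ A) :
    heckeH A ν' ξ = heckeH A ν ξ := by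
  have h := fun g x => CosetData.perm_coc_of_conj D D' hι hsep' (MonoidHom.id G)
    (MonoidHom.id Γ) (fun _ => rfl) e t hrep g x
  exact heckeH_of_reps ν ν' e t (fun g x => (h g x).1) (fun g x => (h g x).2) hψ ξ

/-- **the counting form**: two separated families of the same cardinality, one of which is
contained in the cosets of the other, with compatible nebentypus data, define the same operator on
`H¹`. -/
theorem heckeH_eq_of_exists (hι : Function.Injective ι)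
    (hsep : ∀ (x x' : X) (g : Γ), D.rep x = ι g * D.rep x' → x = x')
    (hsep' : ∀ (x x' : X') (g : Γ), D'.rep x = ι g * D'.rep x' → x = x')
    (hcard : Fintype.card X = Fintype.card X')
    (hex : ∀ x : X, ∃ (x' : X') (t : Γ), D'.rep x' = ι t * D.rep x ∧ ν'.ψ x' = χ t * ν.ψ x)
    (ξ : H1 χ A) :
    heckeH A ν' ξ = heckeH A ν ξ := by
  classical
  choose e₀ t ht using hex
  have hinj : Function.Injective e₀ := by
    intro x₁ x₂ h
    refine hsep x₁ x₂ ((t x₁)⁻¹ * t x₂) ?_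
    have h1 := (ht x₁).1
    have h2 := (ht x₂).1
    rw [h, h2] at h1
    rw [map_mul, map_inv, mul_assoc, h1, inv_mul_cancel_left]
  have hbij : Function.Bijective e₀ :=
    (Fintype.bijective_iff_injective_and_card e₀).mpr ⟨hinj, hcard⟩
  exact heckeH_eq_of_reps ν ν' hι hsep' (Equiv.ofBijective e₀ hbij) t (fun x => (ht x).1)
    (fun x => (ht x).2) ξ

end Indep

/-! ### the criterion for commutation -/

section Comm

variable {X₁ X₂ : Type*} [Fintype X₁] [Fintype X₂] {D₁ : CosetData ι X₁} {D₂ : CosetData ι X₂}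
  {R : Type u} [CommRing R] {χ : Γ →* Rˣ} (ν₁ : Neb D₁ χ) (ν₂ : Neb D₂ χ)
  {A : Type w} [AddCommGroup A] [Module R A]

/-- **commutation of two double-coset operators on `H¹`**: both families of products of
representatives are separated, and every `D₂.rep y * D₁.rep x` lies in the coset of some
`D₁.rep x' * D₂.rep y'`, compatibly with the nebentypus data. -/
theorem heckeH_comm_of_exists (hι : Function.Injective ι)
    (hsep : ∀ (z z' : X₁ × X₂) (g : Γ),
      D₂.rep z.2 * D₁.rep z.1 = ι g * (D₂.rep z'.2 * D₁.rep z'.1) → z = z')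
    (hsep' : ∀ (z z' : X₂ × X₁) (g : Γ),
      D₁.rep z.2 * D₂.rep z.1 = ι g * (D₁.rep z'.2 * D₂.rep z'.1) → z = z')
    (hex : ∀ (x : X₁) (y : X₂), ∃ (x' : X₁) (y' : X₂) (t : Γ),
      D₁.rep x' * D₂.rep y' = ι t * (D₂.rep y * D₁.rep x) ∧
        ν₂.ψ y' * ν₁.ψ x' = χ t * (ν₁.ψ x * ν₂.ψ y))
    (ξ : H1 χ A) :
    heckeH A ν₁ (heckeH A ν₂ ξ) = heckeH A ν₂ (heckeH A ν₁ ξ) := by
  rw [← heckeH_compNeb, ← heckeH_compNeb]
  refine (heckeH_eq_of_exists (compNeb ν₁ ν₂) (compNeb ν₂ ν₁) hι hsep hsep' ?_ ?_ ξ).symm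
  · rw [Fintype.card_prod, Fintype.card_prod, mul_comm]
  · rintro ⟨x, y⟩
    obtain ⟨x', y', t, h1, h2⟩ := hex x y
    exact ⟨(y', x'), t, h1, h2⟩

end Comm

end Fermat.Agent.S43.Hecke.Inst.Compose
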