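/-
PROJECT R (S43, row 37), block L3 (Hecke modules, leader helper24), brick H6 (helper20),
commutation, the instance `Γ₀(M)`.

The double-coset operators `T_r` (`r ∤ M`, nebentypus `nebT`) and `U_q` (`q ∣ M`, nebentypus
`nebU`) of `Hecke/Inst` commute on `H¹(Γ₀(M), A_χ)`, for every character `Ξ` and every module `A`:
`heckeH_nebT_comm`, `heckeH_nebT_nebU_comm`, `heckeH_nebU_comm`.

Method (`Inst/Compose.heckeH_comm_of_exists`): the composites are the double-coset operators of the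
composite coset data, with the upper triangular representatives `repT s y * repT r x` of main;
both families are separated (Hermite normal form by hand, `prod_unique`) and
`repT r x' * repT s y' = [1, t; 0, 1] * (repT s y * repT r x)` for explicit `x'`, `y'`, `t`
(`exists_swapZ`).
-/
import Mathlib
import Fermat.Agent.S43.Hecke.Inst
import Fermat.Agent.S43.Hecke.Inst.Compose

set_option autoImplicit false

open CongruenceSubgroup Matrix.SpecialLinearGroup
open scoped MatrixGroups BigOperators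

noncomputable section

namespace Fermat.Agent.S43.Hecke.Inst.Comm

open Fermat.Agent.S30.Hecke.DoubleCoset Fermat.Agent.S30.Hecke.Gamma0Cosets
open Fermat.Agent.S48.B.Hecke.Gamma1Cosets
open Fermat.Agent.S43.Hecke.Defs Fermat.Agent.S43.Hecke.Inst Fermat.Agent.S43.Hecke.Inst.Compose

/-! ### the products of two integral representatives -/

/-- the upper left entry of `repZ p x * repZ p' y`. -/
def prodA (p p' : ℕ) : Option (Fin p) → Option (Fin p') → ℤ
  | some _, some _ => 1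
  | some _, none => (p' : ℤ)
  | none, some _ => (p : ℤ)
  | none, none => (p : ℤ) * (p' : ℤ)

/-- the upper right entry of `repZ p x * repZ p' y`. -/
def prodB (p p' : ℕ) : Option (Fin p) → Option (Fin p') → ℤ
  | some j, some k => ((k : ℕ) : ℤ) + ((j : ℕ) : ℤ) * (p' : ℤ)
  | some j, none => ((j : ℕ) : ℤ)
  | none, some k => (p : ℤ) * ((k : ℕ) : ℤ)
  | none, none => 0

/-- the lower right entry of `repZ p x * repZ p' y`. -/
def prodD (p p' : ℕ) : Option (Fin p) → Option (Fin p') → ℤ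
  | some _, some _ => (p : ℤ) * (p' : ℤ)
  | some _, none => (p : ℤ)
  | none, some _ => (p' : ℤ)
  | none, none => 1

theorem repZ_mul_repZ (p p' : ℕ) (x : Option (Fin p)) (y : Option (Fin p')) :
    repZ p x * repZ p' y = !![prodA p p' x y, prodB p p' x y; 0, prodD p p' x y] := by
  rcases x with _ | j <;> rcases y with _ | k <;>
    simp only [repZ, prodA, prodB, prodD, Matrix.mul_fin_two] <;>
    exact of_eq (by ring) (by ring) (by ring) (by ring)

theorem prodA_pos {p p' : ℕ} (hp : 0 < p) (hp' : 0 < p') (x : Option (Fin p))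
    (y : Option (Fin p')) : 0 < prodA p p' x y := by
  rcases x with _ | j <;> rcases y with _ | k <;> simp only [prodA] <;> positivity

theorem prodD_pos {p p' : ℕ} (hp : 0 < p) (hp' : 0 < p') (x : Option (Fin p))
    (y : Option (Fin p')) : 0 < prodD p p' x y := by
  rcases x with _ | j <;> rcases y with _ | k <;> simp only [prodD] <;> positivity

/-- two residues that are congruent are equal. -/
theorem eq_of_dvd_sub {n a a' : ℕ} (ha : a < n) (ha' : a' < n)
    (h : (n : ℤ) ∣ (a : ℤ) - (a' : ℤ)) : a = a' := by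
  have h1 := (Int.emod_eq_emod_iff_emod_sub_eq_zero).mpr (Int.emod_eq_zero_of_dvd h)
  rw [Int.emod_eq_of_lt (a := (a : ℤ)) (b := (n : ℤ)) (by positivity) (by exact_mod_cast ha),
    Int.emod_eq_of_lt (a := (a' : ℤ)) (b := (n : ℤ)) (by positivity)
      (by exact_mod_cast ha')] at h1
  exact_mod_cast h1

/-- **the products of representatives are separated** (Hermite normal form). -/
theorem prod_unique {p p' : ℕ} (hp : p.Prime) (hp' : p'.Prime) (hne : p ≠ p')
    (x x' : Option (Fin p)) (y y' : Option (Fin p')) (N : Matrix (Fin 2) (Fin 2) ℤ)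
    (hdet : N.det = 1) (h : repZ p x * repZ p' y = N * (repZ p x' * repZ p' y')) :
    x = x' ∧ y = y' := by
  rw [repZ_mul_repZ, repZ_mul_repZ, Matrix.eta_fin_two N, Matrix.mul_fin_two] at h
  rw [Matrix.det_fin_two] at hdet
  generalize N 0 0 = a at h hdet
  generalize N 0 1 = b at h hdet
  generalize N 1 0 = c at h hdet
  generalize N 1 1 = d at h hdet
  have h00 := congrFun (congrFun h 0) 0
  have h01 := congrFun (congrFun h 0) 1
  have h10 := congrFun (congrFun h 1) 0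
  have h11 := congrFun (congrFun h 1) 1
  simp only [Matrix.of_apply, Matrix.cons_val', Matrix.cons_val_zero, Matrix.cons_val_one,
    Matrix.empty_val', Matrix.cons_val_fin_one, mul_zero, add_zero] at h00 h01 h10 h11
  have hA := prodA_pos hp.pos hp'.pos x y
  have hA' := prodA_pos hp.pos hp'.pos x' y'
  have hD' := prodD_pos hp.pos hp'.pos x' y'
  have hc : c = 0 := by
    rcases mul_eq_zero.mp h10.symm with h0 | h0
    · exact h0
    · exact absurd h0 hA'.ne'
  rw [hc, zero_mul, zero_add] at h11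
  rw [hc, mul_zero, sub_zero] at hdet
  have ha : 0 < a := by
    by_contra hcon
    have : a * prodA p p' x' y' ≤ 0 := mul_nonpos_of_nonpos_of_nonneg (not_lt.mp hcon) hA'.le
    omega
  have ha1 : a = 1 := by
    rcases Int.eq_one_or_neg_one_of_mul_eq_one hdet with h1 | h1
    · exact h1
    · omega
  have hd1 : d = 1 := by rw [ha1, one_mul] at hdet; exact hdet
  rw [ha1, one_mul] at h00 h01
  rw [hd1, one_mul] at h11
  have hp1 : (1 : ℤ) < p := by exact_mod_cast hp.one_lt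
  have hp1' : (1 : ℤ) < p' := by exact_mod_cast hp'.one_lt
  have hne' : (p : ℤ) ≠ p' := by exact_mod_cast hne
  have hpp : (1 : ℤ) < (p : ℤ) * (p' : ℤ) := by nlinarith
  rcases x with _ | j <;> rcases x' with _ | j' <;> rcases y with _ | k <;>
    rcases y' with _ | k' <;> simp only [prodA, prodB, prodD] at h00 h01 h11
  -- 16 cases: the 12 off-diagonal ones die on the diagonal entries
  all_goals try (exfalso; omega)
  · exact ⟨rfl, rfl⟩
  · refine ⟨rfl, ?_⟩
    have hcop : IsCoprime (p' : ℤ) (p : ℤ) := by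
      rw [Int.isCoprime_iff_gcd_eq_one, Int.gcd_natCast_natCast]
      exact (Nat.coprime_primes hp' hp).mpr (Ne.symm hne)
    have hd : (p' : ℤ) ∣ (p : ℤ) * (((k : ℕ) : ℤ) - ((k' : ℕ) : ℤ)) :=
      ⟨b, by linear_combination h01⟩
    exact congrArg some (Fin.ext (eq_of_dvd_sub k.2 k'.2 (hcop.dvd_of_dvd_mul_left hd)))
  · refine ⟨?_, rfl⟩
    have hd : (p : ℤ) ∣ ((j : ℕ) : ℤ) - ((j' : ℕ) : ℤ) := ⟨b, by linear_combination h01⟩
    exact congrArg some (Fin.ext (eq_of_dvd_sub j.2 j'.2 hd))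
  · have hdk : (p' : ℤ) ∣ ((k : ℕ) : ℤ) - ((k' : ℕ) : ℤ) :=
      ⟨((j' : ℕ) : ℤ) - ((j : ℕ) : ℤ) + b * (p : ℤ), by linear_combination h01⟩
    have hk := eq_of_dvd_sub k.2 k'.2 hdk
    rw [hk] at h01
    have hp0 : (p' : ℤ) ≠ 0 := by omega
    have h2 : ((j : ℕ) : ℤ) = ((j' : ℕ) : ℤ) + b * (p : ℤ) := by
      apply mul_right_cancel₀ hp0
      linear_combination h01
    have hdj : (p : ℤ) ∣ ((j : ℕ) : ℤ) - ((j' : ℕ) : ℤ) := ⟨b, by linear_combination h2⟩
    exact ⟨congrArg some (Fin.ext (eq_of_dvd_sub j.2 j'.2 hdj)), congrArg some (Fin.ext hk)⟩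

/-- **swapping the two factors**: `repZ r x' * repZ s y' = [1, t; 0, 1] * (repZ s y * repZ r x)`
for explicit `x'`, `y'`, `t`, of the same types as `x`, `y`. -/
theorem exists_swapZ {r s : ℕ} (hr : r.Prime) (hs : s.Prime) (hne : r ≠ s)
    (x : Option (Fin r)) (y : Option (Fin s)) :
    ∃ (x' : Option (Fin r)) (y' : Option (Fin s)) (t : ℤ),
      repZ r x' * repZ s y' = !![1, t; 0, 1] * (repZ s y * repZ r x) ∧
        x'.isSome = x.isSome ∧ y'.isSome = y.isSome := by
  rcases x with _ | j <;> rcases y with _ | k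
  · refine ⟨none, none, 0, ?_, rfl, rfl⟩
    rw [repZ_mul_repZ, repZ_mul_repZ, Matrix.mul_fin_two]
    simp only [prodA, prodB, prodD]
    exact of_eq (by ring) (by ring) (by ring) (by ring)
  · -- `x = none`, `y = some k`
    have hu : ¬ (s : ℤ) ∣ (r : ℤ) := by
      intro hd
      have hd' : s ∣ r := by exact_mod_cast hd
      exact hne ((Nat.prime_dvd_prime_iff_eq hs hr).mp hd').symm
    obtain ⟨k', hk', c, hc⟩ := exists_lt_dvd_sub hs (r : ℤ) ((k : ℕ) : ℤ) hu
    refine ⟨none, some ⟨k', hk'⟩, -c, ?_, rfl, rfl⟩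
    rw [repZ_mul_repZ, repZ_mul_repZ, Matrix.mul_fin_two]
    simp only [prodA, prodB, prodD]
    exact of_eq (by ring) (by linear_combination -hc) (by ring) (by ring)
  · -- `x = some j`, `y = none`
    have hlt : (s * (j : ℕ)) % r < r := Nat.mod_lt _ hr.pos
    refine ⟨some ⟨(s * (j : ℕ)) % r, hlt⟩, none, -(((s * (j : ℕ)) / r : ℕ) : ℤ), ?_, rfl, rfl⟩
    rw [repZ_mul_repZ, repZ_mul_repZ, Matrix.mul_fin_two]
    simp only [prodA, prodB, prodD]
    have h := Nat.mod_add_div (s * (j : ℕ)) r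
    have h' : (((s * (j : ℕ)) % r : ℕ) : ℤ) + (r : ℤ) * (((s * (j : ℕ)) / r : ℕ) : ℤ) =
        (s : ℤ) * ((j : ℕ) : ℤ) := by exact_mod_cast h
    exact of_eq (by ring) (by linear_combination h') (by ring) (by ring)
  · -- both `some`
    have hn : (j : ℕ) + (k : ℕ) * r < r * s := by
      have hj := j.2
      have hk := k.2
      calc (j : ℕ) + (k : ℕ) * r < r + (k : ℕ) * r := by omega
        _ = ((k : ℕ) + 1) * r := by ring
        _ ≤ s * r := Nat.mul_le_mul_right r hk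
        _ = r * s := mul_comm _ _
    have hdiv : ((j : ℕ) + (k : ℕ) * r) / s < r := Nat.div_lt_of_lt_mul (by rw [mul_comm s r]; exact hn)
    have hmod : ((j : ℕ) + (k : ℕ) * r) % s < s := Nat.mod_lt _ hs.pos
    refine ⟨some ⟨_, hdiv⟩, some ⟨_, hmod⟩, 0, ?_, rfl, rfl⟩
    rw [repZ_mul_repZ, repZ_mul_repZ, Matrix.mul_fin_two]
    simp only [prodA, prodB, prodD]
    have h := Nat.mod_add_div ((j : ℕ) + (k : ℕ) * r) s
    have h' : ((((j : ℕ) + (k : ℕ) * r) % s : ℕ) : ℤ) +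
        (s : ℤ) * ((((j : ℕ) + (k : ℕ) * r) / s : ℕ) : ℤ) =
          ((j : ℕ) : ℤ) + ((k : ℕ) : ℤ) * (r : ℤ) := by exact_mod_cast h
    exact of_eq (by ring) (by linear_combination h') (by ring) (by ring)

/-! ### in `GL₂(ℝ)` -/

/-- the element `[1, t; 0, 1]` of `Γ₀(M)`. -/
def upG (M : ℕ) (t : ℤ) : Gamma0 M := mkGamma0 M 1 t 0 1 (by ring) (dvd_zero _)

theorem coe_upG (M : ℕ) (t : ℤ) :
    (((upG M t : Gamma0 M) : SL(2, ℤ)) : Matrix (Fin 2) (Fin 2) ℤ) = !![1, t; 0, 1] := rfl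

theorem chi_upG (M : ℕ) (t : ℤ) : chi M (upG M t) = 1 := by
  apply Units.ext
  rw [coe_chi, Units.val_one]
  show (((!![1, t; 0, 1] : Matrix (Fin 2) (Fin 2) ℤ) 1 1 : ℤ) : ZMod M) = 1
  simp

theorem repT_swap {M r s : ℕ} (hr0 : r ≠ 0) (hs0 : s ≠ 0) {x x' : Option (Fin r)}
    {y y' : Option (Fin s)} {t : ℤ}
    (h : repZ r x' * repZ s y' = !![1, t; 0, 1] * (repZ s y * repZ r x)) :
    repT r x' * repT s y' = iota M (upG M t) * (repT s y * repT r x) := by
  apply Units.ext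
  rw [Units.val_mul, Units.val_mul, Units.val_mul, coe_repT hr0, coe_repT hs0, coe_repT hs0,
    coe_repT hr0, coe_iota', coe_upG, ← Matrix.map_mul, ← Matrix.map_mul, ← Matrix.map_mul, h]

/-- **the products `repT p x * repT p' y` are separated**, `p ≠ p'` primes. -/
theorem repT_prod_sep {M p p' : ℕ} (hp : p.Prime) (hp' : p'.Prime) (hne : p ≠ p')
    (x x' : Option (Fin p)) (y y' : Option (Fin p')) (g : Gamma0 M)
    (h : repT p x * repT p' y = iota M g * (repT p x' * repT p' y')) : x = x' ∧ y = y' := by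
  have h1 := congrArg (fun u : GL (Fin 2) ℝ => (u : Matrix (Fin 2) (Fin 2) ℝ)) h
  simp only [Units.val_mul] at h1
  rw [coe_repT hp.ne_zero, coe_repT hp'.ne_zero, coe_repT hp.ne_zero, coe_repT hp'.ne_zero,
    coe_iota', ← Matrix.map_mul, ← Matrix.map_mul, ← Matrix.map_mul] at h1
  exact prod_unique hp hp' hne x x' y y' _ (g : SL(2, ℤ)).det_coe
    (Matrix.map_injective (Int.cast_injective (α := ℝ)) h1)

/-! ### the commutation theorems -/

section Main

universe u w

variable {M : ℕ} {R : Type u} [CommRing R] (Ξ : (ZMod M)ˣ →* Rˣ)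
  {A : Type w} [AddCommGroup A] [Module R A]

omit [CommRing R] in
theorem delta_eq_of_isSome {r : ℕ} (hr : r.Prime) (hrM : ¬ r ∣ M) {x x' : Option (Fin r)}
    (h : x'.isSome = x.isSome) : delta hr hrM x' = delta hr hrM x := by
  rcases x with _ | j <;> rcases x' with _ | j' <;> simp_all [delta]

/-- **`T_r` and `T_s` commute on `H¹(Γ₀(M), A_χ)`.** -/
theorem heckeH_nebT_comm {r s : ℕ} (hr : r.Prime) (hrM : ¬ r ∣ M) (hs : s.Prime)
    (hsM : ¬ s ∣ M) (ξ : H1 (chiXi Ξ) A) :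
    heckeH A (nebT Ξ hr hrM) (heckeH A (nebT Ξ hs hsM) ξ) =
      heckeH A (nebT Ξ hs hsM) (heckeH A (nebT Ξ hr hrM) ξ) := by
  by_cases hne : r = s
  · subst hne
    rfl
  refine heckeH_comm_of_exists (nebT Ξ hr hrM) (nebT Ξ hs hsM) (iota_injective M) ?_ ?_ ?_ ξ
  · rintro ⟨x, y⟩ ⟨x', y'⟩ g h
    obtain ⟨h1, h2⟩ := repT_prod_sep hs hr (Ne.symm hne) y y' x x' g h
    rw [h1, h2]
  · rintro ⟨y, x⟩ ⟨y', x'⟩ g h
    obtain ⟨h1, h2⟩ := repT_prod_sep hr hs hne x x' y y' g h
    rw [h1, h2]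
  · intro x y
    obtain ⟨x', y', t, h, hx, hy⟩ := exists_swapZ hr hs hne x y
    refine ⟨x', y', upG M t, repT_swap hr.ne_zero hs.ne_zero h, ?_⟩
    show Ξ (delta hs hsM y') * Ξ (delta hr hrM x') =
      chiXi Ξ (upG M t) * (Ξ (delta hr hrM x) * Ξ (delta hs hsM y))
    rw [chiXi_apply, chi_upG, map_one, one_mul, delta_eq_of_isSome hr hrM hx,
      delta_eq_of_isSome hs hsM hy, mul_comm]

/-- **`T_r` and `U_q` commute on `H¹(Γ₀(M), A_χ)`.** -/
theorem heckeH_nebT_nebU_comm {r q : ℕ} (hr : r.Prime) (hrM : ¬ r ∣ M) (hq : q.Prime)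
    (hqM : q ∣ M) (ξ : H1 (chiXi Ξ) A) :
    heckeH A (nebT Ξ hr hrM) (heckeH A (nebU Ξ hq hqM) ξ) =
      heckeH A (nebU Ξ hq hqM) (heckeH A (nebT Ξ hr hrM) ξ) := by
  have hne : r ≠ q := by
    rintro rfl
    exact hrM hqM
  refine heckeH_comm_of_exists (nebT Ξ hr hrM) (nebU Ξ hq hqM) (iota_injective M) ?_ ?_ ?_ ξ
  · rintro ⟨x, k⟩ ⟨x', k'⟩ g h
    obtain ⟨h1, h2⟩ := repT_prod_sep hq hr (Ne.symm hne) (some k) (some k') x x' g h
    rw [Option.some_injective _ h1, h2]
  · rintro ⟨k, x⟩ ⟨k', x'⟩ g h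
    obtain ⟨h1, h2⟩ := repT_prod_sep hr hq hne x x' (some k) (some k') g h
    rw [h1, Option.some_injective _ h2]
  · intro x k
    obtain ⟨x', y', t, h, hx, hy⟩ := exists_swapZ hr hq hne x (some k)
    obtain ⟨k', rfl⟩ := Option.isSome_iff_exists.mp hy
    refine ⟨x', k', upG M t, repT_swap hr.ne_zero hq.ne_zero h, ?_⟩
    show (1 : Rˣ) * Ξ (delta hr hrM x') = chiXi Ξ (upG M t) * (Ξ (delta hr hrM x) * 1)
    rw [chiXi_apply, chi_upG, map_one, one_mul, one_mul, mul_one, delta_eq_of_isSome hr hrM hx]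

/-- **`U_q` and `U_q'` commute on `H¹(Γ₀(M), A_χ)`.** -/
theorem heckeH_nebU_comm {q q' : ℕ} (hq : q.Prime) (hqM : q ∣ M) (hq' : q'.Prime)
    (hqM' : q' ∣ M) (ξ : H1 (chiXi Ξ) A) :
    heckeH A (nebU Ξ hq hqM) (heckeH A (nebU Ξ hq' hqM') ξ) =
      heckeH A (nebU Ξ hq' hqM') (heckeH A (nebU Ξ hq hqM) ξ) := by
  by_cases hne : q = q'
  · subst hne
    rfl
  refine heckeH_comm_of_exists (nebU Ξ hq hqM) (nebU Ξ hq' hqM') (iota_injective M) ?_ ?_ ?_ ξ
  · rintro ⟨j, k⟩ ⟨j', k'⟩ g h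
    obtain ⟨h1, h2⟩ := repT_prod_sep hq' hq (Ne.symm hne) (some k) (some k') (some j) (some j') g h
    rw [Option.some_injective _ h1, Option.some_injective _ h2]
  · rintro ⟨k, j⟩ ⟨k', j'⟩ g h
    obtain ⟨h1, h2⟩ := repT_prod_sep hq hq' hne (some j) (some j') (some k) (some k') g h
    rw [Option.some_injective _ h1, Option.some_injective _ h2]
  · intro j k
    obtain ⟨x', y', t, h, hx, hy⟩ := exists_swapZ hq hq' hne (some j) (some k)
    obtain ⟨j', rfl⟩ := Option.isSome_iff_exists.mp hx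
    obtain ⟨k', rfl⟩ := Option.isSome_iff_exists.mp hy
    refine ⟨j', k', upG M t, repT_swap hq.ne_zero hq'.ne_zero h, ?_⟩
    show (1 : Rˣ) * 1 = chiXi Ξ (upG M t) * (1 * 1)
    rw [chiXi_apply, chi_upG, map_one, one_mul, one_mul]

/-! ### the whole family of Hecke operators of level `M` -/

/-- the index type of the Hecke operators of level `M`: `T_r` for the primes `r ∤ M` (left) and
`U_q` for the primes `q ∣ M` (right). -/
abbrev HIdx (M : ℕ) : Type := {r : ℕ // r.Prime ∧ ¬ r ∣ M} ⊕ {q : ℕ // q.Prime ∧ q ∣ M}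

/-- the index sets of the representatives. -/
def HX : HIdx M → Type
  | Sum.inl r => Option (Fin r.1)
  | Sum.inr q => Fin q.1

instance instFintypeHX : ∀ j : HIdx M, Fintype (HX j)
  | Sum.inl r => inferInstanceAs (Fintype (Option (Fin r.1)))
  | Sum.inr q => inferInstanceAs (Fintype (Fin q.1))

/-- the coset data. -/
def HD : ∀ j : HIdx M, CosetData (iota M) (HX j)
  | Sum.inl r => cosetT r.2.1 r.2.2
  | Sum.inr q => cosetU q.2.1 q.2.2

/-- the nebentypus data. -/
def Hν : ∀ j : HIdx M, Neb (HD j) (chiXi Ξ)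
  | Sum.inl r => nebT Ξ r.2.1 r.2.2
  | Sum.inr q => nebU Ξ q.2.1 q.2.2

/-- **all the Hecke operators of level `M` commute on `H¹(Γ₀(M), A_χ)`.** -/
theorem Hν_comm (i j : HIdx M) (ξ : H1 (chiXi Ξ) A) :
    heckeH A (Hν Ξ i) (heckeH A (Hν Ξ j) ξ) = heckeH A (Hν Ξ j) (heckeH A (Hν Ξ i) ξ) := by
  rcases i with r | q <;> rcases j with s | q'
  · exact heckeH_nebT_comm Ξ r.2.1 r.2.2 s.2.1 s.2.2 ξ
  · exact heckeH_nebT_nebU_comm Ξ r.2.1 r.2.2 q'.2.1 q'.2.2 ξ
  · exact (heckeH_nebT_nebU_comm Ξ s.2.1 s.2.2 q.2.1 q.2.2 ξ).symm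
  · exact heckeH_nebU_comm Ξ q.2.1 q.2.2 q'.2.1 q'.2.2 ξ

/-- the same as a statement on the endomorphisms. -/
theorem Hν_commute (i j : HIdx M) :
    Commute (heckeH A (Hν Ξ i)) (heckeH A (Hν Ξ j)) :=
  LinearMap.ext fun ξ => Hν_comm Ξ i j ξ

end Main

end Fermat.Agent.S43.Hecke.Inst.Comm
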