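/-
PROJECT R (S43, row 37), block L3 (Hecke modules, leader helper24), brick H6 (helper20):
the Hecke operators of `Hecke/Inst/Comm.Hν` on coefficients with trivial action of `Δ` are the
operators `tauAll` of main on `Hom(Γ₀(M), A)`.

`R = 𝒪[Δ]`, `π : (ZMod M)ˣ →* Δ`, `χ = chiOf 𝒪 (kap π) = chiXi (xiOf 𝒪 π)`, `A` an `R`-module on
which every `single δ 1` acts trivially (`𝒪`, `k`, ... through the augmentation).  Then
`homOfH1 hA : H1 χ A → Hom(Γ₀(M), A)` (bijective, `Hecke/Shapiro`) carries `heckeH A (Hν Ξ j)` to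
`tauAll M r`: `homOfH1_HνK`.  With `BaseChange` at `A = 𝒪` this identifies
`H1 χ R / 𝔞 = Hom(Γ₀(M), 𝒪)` Hecke-equivariantly: the input of the descent `p₀`.
-/
import Mathlib
import Fermat.Agent.S43.Hecke.Inst.Comm

set_option autoImplicit false

open CongruenceSubgroup
open scoped MatrixGroups

noncomputable section

namespace Fermat.Agent.S43.Hecke.Inst.TrivHecke

open Fermat.Agent.S30.Hecke.DoubleCoset Fermat.Agent.S30.Hecke.Gamma0Cosets
open Fermat.Agent.S48.B.Hecke.Gamma1Cosets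
open Fermat.Agent.S43.Hecke.Defs Fermat.Agent.S43.Hecke.Shapiro Fermat.Agent.S43.Hecke.Inst
  Fermat.Agent.S43.Hecke.Inst.Comm

universe u v w

variable {M : ℕ} {Δ : Type v} [CommGroup Δ] (𝒪 : Type u) [CommRing 𝒪] (π : (ZMod M)ˣ →* Δ)

/-- the prime of an index. -/
def idxPrime : HIdx M → ℕ
  | Sum.inl r => r.1
  | Sum.inr q => q.1

theorem idxPrime_prime : ∀ j : HIdx M, (idxPrime j).Prime
  | Sum.inl r => r.2.1
  | Sum.inr q => q.2.1

/-- the family `Hν` for the character `xiOf 𝒪 π`, typed over `chiOf 𝒪 (kap π)`. -/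
def HνK (j : HIdx M) : Neb (HD j) (chiOf 𝒪 (kap π)) := Hν (xiOf 𝒪 π) j

theorem HνK_eq (j : HIdx M) : HνK 𝒪 π j = Hν (xiOf 𝒪 π) j := rfl

variable {𝒪 π} {A : Type w} [AddCommGroup A] [Module (MonoidAlgebra 𝒪 Δ) A]
  (hA : ∀ (δ : Δ) (x : A), (MonoidAlgebra.single δ (1 : 𝒪) : MonoidAlgebra 𝒪 Δ) • x = x)

include hA in
/-- the values of the nebentypus data act trivially. -/
theorem HνK_inv_smul (j : HIdx M) (x : HX j) (a : A) :
    ((((HνK 𝒪 π j).ψ x)⁻¹ : (MonoidAlgebra 𝒪 Δ)ˣ) : MonoidAlgebra 𝒪 Δ) • a = a := by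
  rcases j with r | q
  · have h : ((((HνK 𝒪 π (Sum.inl r)).ψ x)⁻¹ : (MonoidAlgebra 𝒪 Δ)ˣ) : MonoidAlgebra 𝒪 Δ) =
        MonoidAlgebra.single (π (delta r.2.1 r.2.2 x))⁻¹ (1 : 𝒪) := by
      show ((unitOf (𝒪 := 𝒪) (π (delta r.2.1 r.2.2 x)))⁻¹ : (MonoidAlgebra 𝒪 Δ)ˣ).val = _
      unfold unitOf
      rw [← map_inv, ← map_inv]
      rfl
    rw [h]
    exact hA _ a
  · show (((1 : (MonoidAlgebra 𝒪 Δ)ˣ)⁻¹ : (MonoidAlgebra 𝒪 Δ)ˣ) : MonoidAlgebra 𝒪 Δ) • a = a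
    rw [inv_one, Units.val_one, one_smul]

/-- **on coefficients with trivial action the operators `Hν` are main's `tauAll`.** -/
theorem homOfH1_HνK (j : HIdx M) (ξ : H1 (chiOf 𝒪 (kap π)) A) :
    homOfH1 hA (heckeH A (HνK 𝒪 π j) ξ) =
      tauAll M (idxPrime j) (idxPrime_prime j) (homOfH1 hA ξ) := by
  rw [homOfH1_heckeH hA (HνK 𝒪 π j) (HνK_inv_smul hA j) ξ]
  rcases j with r | q
  · show (cosetT r.2.1 r.2.2).heckeHom _ = tauAll M r.1 r.2.1 _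
    unfold tauAll
    rw [dif_neg r.2.2]
    rfl
  · show (cosetU q.2.1 q.2.2).heckeHom _ = tauAll M q.1 q.2.1 _
    unfold tauAll
    rw [dif_pos q.2.2]
    rfl

end Fermat.Agent.S43.Hecke.Inst.TrivHecke
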