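/-
PROJECT R (S43, row 37), block L3 (Hecke modules, leader helper24), brick H6 (helper20):
THE `Side.Pair` OF `Γ₀(M)`.

`Ξ Ξ' : (ZMod M)ˣ →* Rˣ` two characters congruent modulo `ϖ`, both trivial on `-1`, `2` and `3`
units of `R`, `ϖ` regular, `f : J → HIdx M` any family of Hecke indices (`T_r`, `r ∤ M`, and `U_q`,
`q ∣ M`).  Then

* `pairXi f hΞ h1 h1' h2 h3 reg : Side.Pair (fun j => HD (f j)) (chiXi Ξ) (chiXi Ξ') ϖ`,
  with `ν j = Hν Ξ (f j)`, `ν' j = Hν Ξ' (f j)` (`pairXi_ν`, `pairXi_ν'`, by `rfl`);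
* `deg_Hν_inl`, `deg_Hν_inr`: the degrees that enter the non-Eisenstein condition;
* over a complete noetherian local ring `R : Type`, for `θ` non-Eisenstein at some `j₀`:
  `free_M1`, `free_Mχ`, `finrank_M1_eq_finrank_Mχ` (from `Hecke/Free.lean`, with
  `finite_H1_chiXi`).
-/
import Mathlib
import Fermat.Agent.S43.Hecke.Inst.Comm
import Fermat.Agent.S43.Hecke.Free

set_option autoImplicit false

open CongruenceSubgroup Matrix.SpecialLinearGroup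
open scoped MatrixGroups BigOperators

noncomputable section

namespace Fermat.Agent.S43.Hecke.Inst.Pair

open Fermat.Agent.S30.Hecke.DoubleCoset Fermat.Agent.S30.Hecke.Gamma0Cosets
open Fermat.Agent.S48.B.Hecke.Gamma1Cosets
open Fermat.Agent.S43.Hecke.Defs Fermat.Agent.S43.Hecke.Seam
open Fermat.Agent.S43.Hecke.Inst Fermat.Agent.S43.Hecke.Inst.Comm
open Fermat.Agent.S43.Hecke.Cong Fermat.Agent.S43.Hecke.Loc Fermat.Agent.S43.Hecke.Side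

universe u

/-! ### the adapters to `IsCong`, `NebCong` -/

section Adapters

variable {M : ℕ} {R : Type u} [CommRing R] {Ξ Ξ' : (ZMod M)ˣ →* Rˣ} {𝔫 : Ideal R}

/-- congruent characters of `(ZMod M)ˣ` give congruent characters of `Γ₀(M)`. -/
theorem isCong_chiXi (hΞ : ∀ d, ((Ξ' d : Rˣ) : R) - ((Ξ d : Rˣ) : R) ∈ 𝔫) :
    IsCong (chiXi Ξ) (chiXi Ξ') 𝔫 := fun g => chiXi_congr hΞ g

/-- congruent characters of `(ZMod M)ˣ` give congruent nebentypus data for all `T_r`, `U_q`. -/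
theorem nebCong_Hν (hΞ : ∀ d, ((Ξ' d : Rˣ) : R) - ((Ξ d : Rˣ) : R) ∈ 𝔫) (i : HIdx M) :
    NebCong (Hν Ξ i) (Hν Ξ' i) 𝔫 := by
  rcases i with r | q
  · intro x
    exact inv_sub_inv_mem (nebT_congr hΞ r.2.1 r.2.2 x)
  · intro j
    exact inv_sub_inv_mem (nebU_congr q.2.1 q.2.2 j)

variable (Ξ)

/-- `deg T_r = 1 + r ⟨r⟩⁻¹`. -/
theorem deg_Hν_inl (r : {r : ℕ // r.Prime ∧ ¬ r ∣ M}) :
    (Hν Ξ (Sum.inl r)).deg = 1 + (r.1 : R) * (((Ξ (pUnit r.2.1 r.2.2))⁻¹ : Rˣ) : R) :=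
  deg_nebT Ξ r.2.1 r.2.2

/-- `deg U_q = q`. -/
theorem deg_Hν_inr (q : {q : ℕ // q.Prime ∧ q ∣ M}) : (Hν Ξ (Sum.inr q)).deg = (q.1 : R) :=
  deg_nebU Ξ q.2.1 q.2.2

end Adapters

/-! ### the pair -/

section ThePair

variable {M : ℕ} {R : Type u} [CommRing R] {Ξ Ξ' : (ZMod M)ˣ →* Rˣ} {ϖ : R}
  {J : Type*} (f : J → HIdx M)

/-- **the `Side.Pair` of `Γ₀(M)`** for two characters congruent modulo `ϖ` and any family `f` of
Hecke indices. -/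
def pairXi (hΞ : ∀ d, ((Ξ' d : Rˣ) : R) - ((Ξ d : Rˣ) : R) ∈ Ideal.span ({ϖ} : Set R))
    (h1 : Ξ (-1) = 1) (h1' : Ξ' (-1) = 1) (h2 : IsUnit (2 : R)) (h3 : IsUnit (3 : R))
    (reg : ∀ a : R, ϖ • a = 0 → a = 0) :
    Side.Pair (fun j => HD (f j)) (chiXi Ξ) (chiXi Ξ') ϖ where
  ν j := Hν Ξ (f j)
  ν' j := Hν Ξ' (f j)
  cong := isCong_chiXi hΞ
  νcong j := nebCong_Hν hΞ (f j)
  comm i j := Hν_commute Ξ (f i) (f j)
  comm' i j := Hν_commute Ξ' (f i) (f j)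
  cd := cd1_chiXi Ξ h1 h2 h3
  cd' := cd1_chiXi Ξ' h1' h2 h3
  reg := reg

variable (hΞ : ∀ d, ((Ξ' d : Rˣ) : R) - ((Ξ d : Rˣ) : R) ∈ Ideal.span ({ϖ} : Set R))
  (h1 : Ξ (-1) = 1) (h1' : Ξ' (-1) = 1) (h2 : IsUnit (2 : R)) (h3 : IsUnit (3 : R))
  (reg : ∀ a : R, ϖ • a = 0 → a = 0)

@[simp] theorem pairXi_ν (j : J) : (pairXi f hΞ h1 h1' h2 h3 reg).ν j = Hν Ξ (f j) := rfl

@[simp] theorem pairXi_ν' (j : J) : (pairXi f hΞ h1 h1' h2 h3 reg).ν' j = Hν Ξ' (f j) := rfl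

/-- the operators of the pair are the double-coset operators `heckeH R (Hν Ξ (f j))`. -/
theorem ops_pairXi_ν (j : J) :
    ops (pairXi f hΞ h1 h1' h2 h3 reg).ν R j = heckeH R (Hν Ξ (f j)) := rfl

theorem ops_pairXi_ν' (j : J) :
    ops (pairXi f hΞ h1 h1' h2 h3 reg).ν' R j = heckeH R (Hν Ξ' (f j)) := rfl

end ThePair

/-! ### freeness and ranks -/

section FreeRank

variable {M : ℕ} [NeZero M] {R : Type} [CommRing R] {Ξ Ξ' : (ZMod M)ˣ →* Rˣ} {ϖ : R}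
  {J : Type} (f : J → HIdx M)
  (hΞ : ∀ d, ((Ξ' d : Rˣ) : R) - ((Ξ d : Rˣ) : R) ∈ Ideal.span ({ϖ} : Set R))
  (h1 : Ξ (-1) = 1) (h1' : Ξ' (-1) = 1) (h2 : IsUnit (2 : R)) (h3 : IsUnit (3 : R))
  (reg : ∀ a : R, ϖ • a = 0 → a = 0)
  [IsLocalRing R] [IsNoetherianRing R] [IsAdicComplete (IsLocalRing.maximalIdeal R) R]
  (θ : J → IsLocalRing.ResidueField R)

/-- **the Hecke module of `Γ₀(M)` of type `Ξ`, localised at a non-Eisenstein `θ`, is free.** -/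
theorem free_M1 (j₀ : J) (hne : θ j₀ ≠ IsLocalRing.residue R (Hν Ξ (f j₀)).deg) :
    Module.Free R ((pairXi f hΞ h1 h1' h2 h3 reg).M1 θ) :=
  Fermat.Agent.S43.Hecke.Free.free_M1 (pairXi f hΞ h1 h1' h2 h3 reg) θ
    (finite_H1_chiXi R Ξ) j₀ hne

/-- **the same for the type `Ξ'`.** -/
theorem free_Mχ (hϖ : ϖ ∈ IsLocalRing.maximalIdeal R) (j₀ : J)
    (hne : θ j₀ ≠ IsLocalRing.residue R (Hν Ξ (f j₀)).deg) :
    Module.Free R ((pairXi f hΞ h1 h1' h2 h3 reg).Mχ θ) :=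
  Fermat.Agent.S43.Hecke.Free.free_Mχ (pairXi f hΞ h1 h1' h2 h3 reg) θ
    (finite_H1_chiXi R Ξ') hϖ j₀ hne

/-- **the two Hecke modules have the same rank.** -/
theorem finrank_M1_eq_finrank_Mχ (hϖ : ϖ ∈ IsLocalRing.maximalIdeal R) (j₀ : J)
    (hne : θ j₀ ≠ IsLocalRing.residue R (Hν Ξ (f j₀)).deg) :
    Module.finrank R ((pairXi f hΞ h1 h1' h2 h3 reg).M1 θ) =
      Module.finrank R ((pairXi f hΞ h1 h1' h2 h3 reg).Mχ θ) :=
  Fermat.Agent.S43.Hecke.Free.finrank_M1_eq_finrank_Mχ (pairXi f hΞ h1 h1' h2 h3 reg) θ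
    (finite_H1_chiXi R Ξ) (finite_H1_chiXi R Ξ') hϖ j₀ hne

end FreeRank

end Fermat.Agent.S43.Hecke.Inst.Pair
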