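/-
PROJECT R (S43, row 37), block L3 (Hecke modules, leader helper24), the bridge to the Tate side,
bricks (B-b') + (B-c) (helper20; chief's ruling on the bridge `Lam ↔ M_Q`).

`π : (ZMod M)ˣ →* Δ`, `κ = kap π : Γ₀(M) →* Δ` the diamond character of `Hecke/Inst`.  `Γ₁(M)` sits
in `ker κ` (`incl1`), and

* `res1 π A : Hom(ker κ, A) → Hom(Γ₁(M), A)`, the restriction, is INJECTIVE for a torsion-free `A`
  (`res1_injective`: a power of every element of `ker κ` lies in `Γ₁(M)`);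
* it intertwines the standard coset data: `tau1T_res1`, `tau1U_res1` (`cosetTker`, `cosetUker` of
  `Hecke/Inst` against main's `tau1T`, `tau1U` of `S48/B/Hecke/Gamma1Cosets`), and the conjugations:
  `diamondHom_res1`; `res1 φ` is invariant under the diamonds of `ker π` (`diamondHom_res1_of_ker`);
* `beta 𝒪 π hκ := res1 ∘ shapiro : H¹(Γ₀(M), 𝒪[Δ]_χ) →ₗ[𝒪] Hom(Γ₁(M), 𝒪)`: injective for torsion-free
  `𝒪` (`beta_injective`, `beta_injective_of`), with
  `tau1T (beta ξ) = beta (⟨r⟩ • T_ν ξ)` (`beta_nebT`), `tau1U (beta ξ) = beta (U_ν ξ)` (`beta_nebU`),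
  `diamondHom s (beta ξ) = beta (single (κ s) 1 • ξ)` (`beta_single_smul`), and in the indexed form
  `beta_Hν`, `tau1All_beta`.
-/
import Mathlib
import Fermat.Agent.S48.B.Hecke.Diamond1
import Fermat.Agent.S43.Hecke.Inst.Comm

set_option autoImplicit false

open CongruenceSubgroup Matrix.SpecialLinearGroup
open scoped MatrixGroups BigOperators

noncomputable section

namespace Fermat.Agent.S43.Hecke.Inst.Restrict1

open Fermat.Agent.S30.Hecke.DoubleCoset Fermat.Agent.S30.Hecke.Gamma0Cosets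
open Fermat.Agent.S48.B.Hecke.Gamma1Cosets Fermat.Agent.S48.B.Hecke.CosetRestrict
open Fermat.Agent.S48.B.Hecke.Diamond1
open Fermat.Agent.S43.Hecke.Defs Fermat.Agent.S43.Hecke.Shapiro Fermat.Agent.S43.Hecke.Inst
open Fermat.Agent.S43.Hecke.Inst.Comm

universe u v w

/-! ### `Γ₁(M)` inside `ker κ` -/

section Incl

variable {M : ℕ} {Δ : Type v} [CommGroup Δ] (π : (ZMod M)ˣ →* Δ)

theorem chi_incl (g : Gamma1 M) : chi M (incl M g) = 1 :=
  (mem_range_incl_iff M (incl M g)).mp ⟨g, rfl⟩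

theorem kap_incl (g : Gamma1 M) : kap π (incl M g) = 1 := by
  rw [kap_apply, chi_incl, map_one]

/-- the inclusion `Γ₁(M) → ker κ`. -/
def incl1 : ↥(Gamma1 M) →* (kap π).ker where
  toFun g := ⟨incl M g, MonoidHom.mem_ker.mpr (kap_incl π g)⟩
  map_one' := Subtype.ext (map_one (incl M))
  map_mul' g h := Subtype.ext (map_mul (incl M) g h)

@[simp] theorem coe_incl1 (g : Gamma1 M) : ((incl1 π g : (kap π).ker) : Gamma0 M) = incl M g := rfl

theorem incl1_injective : Function.Injective (incl1 π) := by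
  intro g h e
  exact incl_injective M (congrArg (fun z : (kap π).ker => (z : Gamma0 M)) e)

/-- a nonzero power of every element of `ker κ` lies in `Γ₁(M)`. -/
theorem exists_pow_eq_incl1 [NeZero M] (h : (kap π).ker) :
    ∃ (n : ℕ) (u : Gamma1 M), n ≠ 0 ∧ h ^ n = incl1 π u := by
  have hfin : IsOfFinOrder (chi M (h : Gamma0 M)) := isOfFinOrder_of_finite _
  have h1 : chi M ((h : Gamma0 M) ^ orderOf (chi M (h : Gamma0 M))) = 1 := by
    rw [map_pow, pow_orderOf_eq_one]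
  obtain ⟨u, hu⟩ := (mem_range_incl_iff M _).mpr h1
  refine ⟨orderOf (chi M (h : Gamma0 M)), u, (orderOf_pos_iff.mpr hfin).ne', ?_⟩
  apply Subtype.ext
  rw [coe_incl1, hu]
  rfl

end Incl

/-! ### the restriction -/

section Res

variable {M : ℕ} {Δ : Type v} [CommGroup Δ] (π : (ZMod M)ˣ →* Δ) (A : Type w) [AddCommGroup A]

/-- **the restriction `Hom(ker κ, A) → Hom(Γ₁(M), A)`.** -/
def res1 : (Additive (kap π).ker →+ A) →+ (Additive (Gamma1 M) →+ A) where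
  toFun φ := φ.comp (MonoidHom.toAdditive (incl1 π))
  map_zero' := rfl
  map_add' _ _ := rfl

variable {A}

@[simp] theorem res1_apply (φ : Additive (kap π).ker →+ A) (g : Gamma1 M) :
    res1 π A φ (Additive.ofMul g) = φ (Additive.ofMul (incl1 π g)) := rfl

/-- the restriction is injective as soon as no nonzero element of `A` is killed by a nonzero
integer. -/
theorem res1_injective_of [NeZero M] (hA : ∀ n : ℕ, n ≠ 0 → ∀ a : A, n • a = 0 → a = 0) :
    Function.Injective (res1 π A) := by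
  rw [injective_iff_map_eq_zero]
  intro φ hφ
  refine AddMonoidHom.ext fun h' => ?_
  obtain ⟨h, rfl⟩ := Additive.ofMul.surjective h'
  obtain ⟨n, u, hn, hu⟩ := exists_pow_eq_incl1 π h
  refine hA n hn _ ?_
  rw [← map_nsmul, ← ofMul_pow, hu, ← res1_apply, hφ]
  rfl

/-- **the restriction is injective for a torsion-free `A`.** -/
theorem res1_injective [NeZero M] [IsAddTorsionFree A] : Function.Injective (res1 π A) :=
  res1_injective_of π fun _ hn _ h => (nsmul_eq_zero_iff_right hn).mp h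

/-- the restriction as a linear map. -/
def res1L (𝒪 : Type u) [CommRing 𝒪] [Module 𝒪 A] :
    (Additive (kap π).ker →+ A) →ₗ[𝒪] (Additive (Gamma1 M) →+ A) where
  toFun := res1 π A
  map_add' := map_add _
  map_smul' _ _ := rfl

@[simp] theorem res1L_apply (𝒪 : Type u) [CommRing 𝒪] [Module 𝒪 A]
    (φ : Additive (kap π).ker →+ A) : res1L π 𝒪 φ = res1 π A φ := rfl

/-! ### the double-coset operators -/

variable (ι₁ : (kap π).ker →* GL (Fin 2) ℝ) (hι : ∀ g, ι₁ g = iota M ((kap π).ker.subtype g))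
  {r : ℕ}

theorem incl1_cosetT1_coc (hr : r.Prime) (hrM : ¬ r ∣ M) (g : Gamma1 M) (x : Option (Fin r)) :
    incl1 π ((cosetT1 hr hrM).coc g x) = (cosetTker π ι₁ hι hr hrM).coc (incl1 π g) x := by
  apply Subtype.ext
  rw [coe_incl1, incl_cosetT1_coc]
  exact (map_kerData_coc (cosetT hr hrM) (kap π) (fun x => π (delta hr hrM x))
    (kap_cosetT π hr hrM) (tcorr hr hrM) (π (pUnit hr hrM)) (kap_tcorr π hr hrM) ι₁
    (kap π).ker.subtype (kap π).ker.subtype_injective hι (mem_range_subtype_iff π)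
    (incl1 π g) x).symm

theorem incl1_cosetU1_coc (hr : r.Prime) (hrM : r ∣ M) (g : Gamma1 M) (j : Fin r) :
    incl1 π ((cosetU1 hr hrM).coc g j) = (cosetUker π ι₁ hι hr hrM).coc (incl1 π g) j := by
  apply Subtype.ext
  rw [coe_incl1, incl_cosetU1_coc]
  have h := map_kerData_coc (cosetU hr hrM) (kap π) (fun _ => 1) (kap_cosetU π hr hrM)
    (fun _ => 1) 1 (fun _ => by rw [map_one, one_mul]) ι₁
    (kap π).ker.subtype (kap π).ker.subtype_injective hι (mem_range_subtype_iff π)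
    (incl1 π g) j
  exact (h.trans (by rw [one_mul, inv_one, mul_one]; rfl)).symm

/-- **`T_r` (`r ∤ M`) commutes with the restriction.** -/
theorem tau1T_res1 (hr : r.Prime) (hrM : ¬ r ∣ M) (φ : Additive (kap π).ker →+ A) :
    tau1T hr hrM (res1 π A φ) = res1 π A ((cosetTker π ι₁ hι hr hrM).heckeHom φ) := by
  refine AddMonoidHom.ext fun g' => ?_
  obtain ⟨g, rfl⟩ := Additive.ofMul.surjective g'
  show (cosetT1 hr hrM).heckeHom (res1 π A φ) (Additive.ofMul g) = _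
  rw [CosetData.heckeHom_apply, res1_apply, CosetData.heckeHom_apply]
  refine Finset.sum_congr rfl fun x _ => ?_
  rw [res1_apply, incl1_cosetT1_coc π ι₁ hι]

/-- **`U_r` (`r ∣ M`) commutes with the restriction.** -/
theorem tau1U_res1 (hr : r.Prime) (hrM : r ∣ M) (φ : Additive (kap π).ker →+ A) :
    tau1U hr hrM (res1 π A φ) = res1 π A ((cosetUker π ι₁ hι hr hrM).heckeHom φ) := by
  refine AddMonoidHom.ext fun g' => ?_
  obtain ⟨g, rfl⟩ := Additive.ofMul.surjective g'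
  show (cosetU1 hr hrM).heckeHom (res1 π A φ) (Additive.ofMul g) = _
  rw [CosetData.heckeHom_apply, res1_apply, CosetData.heckeHom_apply]
  refine Finset.sum_congr rfl fun x _ => ?_
  rw [res1_apply, incl1_cosetU1_coc π ι₁ hι]

/-! ### the conjugations -/

theorem incl1_conj1 (s : Gamma0 M) (g : Gamma1 M) :
    incl1 π (conj1 s g) = conjKer (κ := kap π) s (incl1 π g) := by
  apply Subtype.ext
  rw [coe_incl1, incl_conj1]
  rfl

/-- **the diamond `⟨s⟩` on `Hom(Γ₁(M), A)` is the conjugation by `s` on `ker κ`.** -/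
theorem diamondHom_res1 (s : Gamma0 M) (φ : Additive (kap π).ker →+ A) :
    diamondHom s (res1 π A φ) =
      res1 π A (φ.comp (MonoidHom.toAdditive
        (MonoidHom.mk' (conjKer (κ := kap π) s) (fun a b => by
          apply Subtype.ext
          simp only [coe_conjKer, Subgroup.coe_mul]
          group)))) := by
  refine AddMonoidHom.ext fun g' => ?_
  obtain ⟨g, rfl⟩ := Additive.ofMul.surjective g'
  rw [diamondHom_apply, res1_apply, res1_apply, incl1_conj1]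
  rfl

/-- the restriction of a homomorphism of `ker κ` is invariant under the diamonds of `ker κ`. -/
theorem diamondHom_res1_of_ker {s : Gamma0 M} (hs : kap π s = 1)
    (φ : Additive (kap π).ker →+ A) : diamondHom s (res1 π A φ) = res1 π A φ := by
  refine AddMonoidHom.ext fun g' => ?_
  obtain ⟨g, rfl⟩ := Additive.ofMul.surjective g'
  rw [diamondHom_apply, res1_apply, res1_apply, incl1_conj1]
  have e : conjKer (κ := kap π) s (incl1 π g) =
      (⟨s, MonoidHom.mem_ker.mpr hs⟩ : (kap π).ker) * incl1 π g *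
        (⟨s, MonoidHom.mem_ker.mpr hs⟩ : (kap π).ker)⁻¹ := by
    apply Subtype.ext
    rfl
  rw [e, ofMul_mul, ofMul_mul, map_add, map_add, ofMul_inv, map_neg]
  abel

end Res

/-! ### the composite with Shapiro -/

section Beta

variable {M : ℕ} {Δ : Type v} [CommGroup Δ] [Finite Δ] (𝒪 : Type u) [CommRing 𝒪]
  (π : (ZMod M)ˣ →* Δ) (hκ : Function.Surjective (kap π))

/-- **the bridge**: `H¹(Γ₀(M), 𝒪[Δ]_χ) → Hom(Γ₁(M), 𝒪)`, Shapiro followed by the restriction. -/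
def beta : H1 (chiOf 𝒪 (kap π)) (MonoidAlgebra 𝒪 Δ) →ₗ[𝒪] (Additive (Gamma1 M) →+ 𝒪) :=
  (res1L π 𝒪).comp (shapiro 𝒪 (kap π) hκ).toLinearMap

variable {𝒪 π}

theorem beta_apply (ξ : H1 (chiOf 𝒪 (kap π)) (MonoidAlgebra 𝒪 Δ)) :
    beta 𝒪 π hκ ξ = res1 π 𝒪 (shapiro 𝒪 (kap π) hκ ξ) := rfl

/-- on a class: the coefficient at `1 ∈ Δ` of the cocycle, on `Γ₁(M)`. -/
theorem beta_mk (c : Z1 (chiOf 𝒪 (kap π)) (MonoidAlgebra 𝒪 Δ)) (g : Gamma1 M) :
    beta 𝒪 π hκ (H1.mk (chiOf 𝒪 (kap π)) (MonoidAlgebra 𝒪 Δ) c) (Additive.ofMul g) =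
      ((c : Gamma0 M → MonoidAlgebra 𝒪 Δ) (incl M g)).coeff 1 := rfl

/-- the bridge is injective as soon as no nonzero element of `𝒪` is killed by a nonzero integer. -/
theorem beta_injective_of [NeZero M] (h𝒪 : ∀ n : ℕ, n ≠ 0 → ∀ a : 𝒪, n • a = 0 → a = 0) :
    Function.Injective (beta 𝒪 π hκ) :=
  (res1_injective_of π h𝒪).comp (shapiro 𝒪 (kap π) hκ).injective

/-- **the bridge is injective** (torsion-free coefficients). -/
theorem beta_injective [NeZero M] [IsAddTorsionFree 𝒪] : Function.Injective (beta 𝒪 π hκ) :=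
  (res1_injective π).comp (shapiro 𝒪 (kap π) hκ).injective

variable {r : ℕ}

/-- **`T_r` on `Hom(Γ₁(M), 𝒪)` is `⟨r⟩ • T_ν`** (`r ∤ M`). -/
theorem beta_nebT (hr : r.Prime) (hrM : ¬ r ∣ M)
    (ξ : H1 (chiOf 𝒪 (kap π)) (MonoidAlgebra 𝒪 Δ)) :
    tau1T hr hrM (beta 𝒪 π hκ ξ) =
      beta 𝒪 π hκ ((MonoidAlgebra.single (π (pUnit hr hrM)) (1 : 𝒪) : MonoidAlgebra 𝒪 Δ) •
        heckeH (MonoidAlgebra 𝒪 Δ) (nebTk 𝒪 π hr hrM) ξ) := by
  rw [beta_apply, beta_apply,
    tau1T_res1 π ((iota M).comp (kap π).ker.subtype) (fun _ => rfl) hr hrM,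
    shapiro_nebT 𝒪 π ((iota M).comp (kap π).ker.subtype) (fun _ => rfl) hκ hr hrM ξ]

/-- **`U_r` on `Hom(Γ₁(M), 𝒪)` is `U_ν`** (`r ∣ M`). -/
theorem beta_nebU (hr : r.Prime) (hrM : r ∣ M)
    (ξ : H1 (chiOf 𝒪 (kap π)) (MonoidAlgebra 𝒪 Δ)) :
    tau1U hr hrM (beta 𝒪 π hκ ξ) =
      beta 𝒪 π hκ (heckeH (MonoidAlgebra 𝒪 Δ) (nebUk 𝒪 π hr hrM) ξ) := by
  rw [beta_apply, beta_apply,
    tau1U_res1 π ((iota M).comp (kap π).ker.subtype) (fun _ => rfl) hr hrM,
    shapiro_nebU 𝒪 π ((iota M).comp (kap π).ker.subtype) (fun _ => rfl) hκ hr hrM ξ]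

/-- **the diamond `⟨s⟩` on `Hom(Γ₁(M), 𝒪)` is the multiplication by `single (κ s) 1`.** -/
theorem beta_single_smul (s : Gamma0 M) (ξ : H1 (chiOf 𝒪 (kap π)) (MonoidAlgebra 𝒪 Δ)) :
    diamondHom s (beta 𝒪 π hκ ξ) =
      beta 𝒪 π hκ ((MonoidAlgebra.single (kap π s) (1 : 𝒪) : MonoidAlgebra 𝒪 Δ) • ξ) := by
  refine AddMonoidHom.ext fun g' => ?_
  obtain ⟨g, rfl⟩ := Additive.ofMul.surjective g'
  rw [diamondHom_apply, beta_apply, beta_apply, res1_apply, res1_apply, incl1_conj1,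
    shapiro_single_smul' hκ s ξ (incl1 π g)]

/-- the diamond operator `⟨d⟩`, `d ∈ (ℤ/M)ˣ`. -/
theorem diamondOp_beta [NeZero M] (d : (ZMod M)ˣ) (ξ : H1 (chiOf 𝒪 (kap π)) (MonoidAlgebra 𝒪 Δ)) :
    diamondOp d (beta 𝒪 π hκ ξ) =
      beta 𝒪 π hκ ((MonoidAlgebra.single (π d) (1 : 𝒪) : MonoidAlgebra 𝒪 Δ) • ξ) := by
  obtain ⟨s, hs⟩ := chi_surjective M d
  rw [diamondOp_eq hs, beta_single_smul, kap_apply, hs]

/-- the image of the bridge is fixed by the diamonds of `ker π`. -/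
theorem diamondOp_beta_of_ker [NeZero M] {d : (ZMod M)ˣ} (hd : π d = 1)
    (ξ : H1 (chiOf 𝒪 (kap π)) (MonoidAlgebra 𝒪 Δ)) :
    diamondOp d (beta 𝒪 π hκ ξ) = beta 𝒪 π hκ ξ := by
  rw [diamondOp_beta, hd]
  congr 1
  exact one_smul _ ξ

/-! ### the indexed form -/

omit [Finite Δ] in
/-- the nebentypus of `U_r` for `xiOf` is `nebUk`. -/
theorem nebU_xiOf (hr : r.Prime) (hrM : r ∣ M) :
    nebU (xiOf 𝒪 π) hr hrM = nebUk 𝒪 π hr hrM := by
  have h : ∀ ν ν' : Neb (cosetU hr hrM) (chiOf 𝒪 (kap π)), ν.ψ = ν'.ψ → ν = ν' := by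
    rintro ⟨ψ, _⟩ ⟨ψ', _⟩ (rfl : ψ = ψ')
    rfl
  exact h _ _ (funext fun j => nebU_xiOf_psi 𝒪 π hr hrM j)

/-- the unit by which the standard operator of index `i` differs from the nebentypus one:
`⟨r⟩` for `T_r`, `1` for `U_q`. -/
def diaOf (π : (ZMod M)ˣ →* Δ) : HIdx M → Δ
  | Sum.inl r => π (pUnit r.2.1 r.2.2)
  | Sum.inr _ => 1

/-- the prime of an index. -/
def primeOf : HIdx M → ℕ
  | Sum.inl r => r.1
  | Sum.inr q => q.1

theorem primeOf_prime (i : HIdx M) : (primeOf i).Prime := by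
  rcases i with r | q
  · exact r.2.1
  · exact q.2.1

/-- **all the operators at once**: `τ_r (beta ξ) = beta (⟨r⟩^{[r ∤ M]} • heckeH (Hν (xiOf 𝒪 π) i) ξ)`. -/
theorem tau1All_beta (i : HIdx M) (ξ : H1 (chiXi (xiOf 𝒪 π)) (MonoidAlgebra 𝒪 Δ)) :
    tau1All M (primeOf i) (primeOf_prime i) (beta 𝒪 π hκ ξ) =
      beta 𝒪 π hκ ((MonoidAlgebra.single (diaOf π i) (1 : 𝒪) : MonoidAlgebra 𝒪 Δ) •
        heckeH (MonoidAlgebra 𝒪 Δ) (Hν (xiOf 𝒪 π) i) ξ) := by
  rcases i with r | q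
  · show tau1All M r.1 r.2.1 _ = _
    rw [tau1All_neg r.2.1 r.2.2]
    exact beta_nebT hκ r.2.1 r.2.2 ξ
  · show tau1All M q.1 q.2.1 _ = _
    rw [tau1All_pos q.2.1 q.2.2]
    have e : (MonoidAlgebra.single (diaOf π (Sum.inr q)) (1 : 𝒪) : MonoidAlgebra 𝒪 Δ) = 1 := rfl
    rw [e, one_smul]
    show _ = beta 𝒪 π hκ (heckeH (MonoidAlgebra 𝒪 Δ) (nebU (xiOf 𝒪 π) q.2.1 q.2.2) ξ)
    rw [nebU_xiOf]
    exact beta_nebU hκ q.2.1 q.2.2 ξ

end Beta

end Fermat.Agent.S43.Hecke.Inst.Restrict1
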