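/-
PROJECT R (S43, row 37), block L3 (Hecke modules, leader helper24), the bridge to the Tate side:
THE FAMILY FORM OF `Inst/Restrict1` (helper20), indexed by `J ⊕ (ZMod M)ˣ` (Hecke indices through
`f : J → HIdx M`, and diamonds), so that `PolyModule.WithOps.map` makes the bridge linear over the
polynomial ring `MvPolynomial (J ⊕ (ZMod M)ˣ) 𝒪`.

`e : J → (ZMod M)ˣ` is an arbitrary family of diamond twists (`e = 1`: the standard operators;
`e j = r ^ m`: the operators `⟨r^m⟩ T_r` of the twisted Galois module).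

* `opsB 𝒪 π f e` on `H¹(Γ₀(M), 𝒪[Δ]_χ)`, `χ = chiXi (xiOf 𝒪 π)`:
  `inl j ↦ single (π (e j) * diaOf π (f j)) 1 • heckeH (Hν (xiOf 𝒪 π) (f j))`,
  `inr d ↦ single (π d) 1 • ·`;  `opsB_comm`;
* `ops1 𝒪 f e` on `Hom(Γ₁(M), 𝒪)`: `inl j ↦ ⟨e j⟩ ∘ τ_{r_j}` (main's `tau1AllLin`, `diamondLin`),
  `inr d ↦ ⟨d⟩`;  `ops1_comm` (**the full Hecke algebra of `Γ₁(M)` is commutative on
  `Hom(Γ₁(M), 𝒪)`**, by Shapiro at `π = id`, where the bridge is onto: `beta_id_surjective`);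
  `tau1All_comm`, `tau1All_diamondOp_comm` in plain form;
* `beta_opsB`: the bridge `beta` of `Inst/Restrict1` intertwines the two families;
* `betaP : WithOps (opsB ..) _ →ₗ[MvPolynomial (J ⊕ (ZMod M)ˣ) 𝒪] WithOps (ops1 ..) _`,
  `betaP_injective`.
-/
import Mathlib
import Fermat.Agent.S48.B.Hecke.Parabolic1
import Fermat.Agent.S43.Hecke.PolyModule
import Fermat.Agent.S43.Hecke.Inst.Restrict1

set_option autoImplicit false

open CongruenceSubgroup Matrix.SpecialLinearGroup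
open scoped MatrixGroups BigOperators

noncomputable section

namespace Fermat.Agent.S43.Hecke.Inst.BridgeOps

open Fermat.Agent.S30.Hecke.DoubleCoset Fermat.Agent.S30.Hecke.Gamma0Cosets
open Fermat.Agent.S48.B.Hecke.Gamma1Cosets Fermat.Agent.S48.B.Hecke.CosetRestrict
open Fermat.Agent.S48.B.Hecke.Diamond1 Fermat.Agent.S48.B.Hecke.Parabolic1
open Fermat.Agent.S43.Hecke.Defs Fermat.Agent.S43.Hecke.Shapiro Fermat.Agent.S43.Hecke.Inst
open Fermat.Agent.S43.Hecke.Inst.Comm Fermat.Agent.S43.Hecke.Inst.Restrict1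
open Fermat.Agent.S43.Hecke.PolyModule

universe u v

/-! ### the operators on the side of `Γ₀(M)` -/

section SideB

variable {M : ℕ} {Δ : Type v} [CommGroup Δ] (𝒪 : Type u) [CommRing 𝒪] (π : (ZMod M)ˣ →* Δ)
  {J : Type*} (f : J → HIdx M) (e : J → (ZMod M)ˣ)

/-- the family of operators on `H¹(Γ₀(M), 𝒪[Δ]_χ)`: twisted Hecke operators and diamonds. -/
def opsB : J ⊕ (ZMod M)ˣ → Module.End 𝒪 (H1 (chiXi (xiOf 𝒪 π)) (MonoidAlgebra 𝒪 Δ))
  | Sum.inl j =>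
    ((MonoidAlgebra.single (π (e j) * diaOf π (f j)) (1 : 𝒪) : MonoidAlgebra 𝒪 Δ) •
      heckeH (MonoidAlgebra 𝒪 Δ) (Hν (xiOf 𝒪 π) (f j))).restrictScalars 𝒪
  | Sum.inr d =>
    (LinearMap.lsmul (MonoidAlgebra 𝒪 Δ) (H1 (chiXi (xiOf 𝒪 π)) (MonoidAlgebra 𝒪 Δ))
      (MonoidAlgebra.single (π d) (1 : 𝒪))).restrictScalars 𝒪

theorem opsB_inl_apply (j : J) (ξ : H1 (chiXi (xiOf 𝒪 π)) (MonoidAlgebra 𝒪 Δ)) :
    opsB 𝒪 π f e (Sum.inl j) ξ =
      (MonoidAlgebra.single (π (e j) * diaOf π (f j)) (1 : 𝒪) : MonoidAlgebra 𝒪 Δ) •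
        heckeH (MonoidAlgebra 𝒪 Δ) (Hν (xiOf 𝒪 π) (f j)) ξ := rfl

theorem opsB_inr_apply (d : (ZMod M)ˣ) (ξ : H1 (chiXi (xiOf 𝒪 π)) (MonoidAlgebra 𝒪 Δ)) :
    opsB 𝒪 π f e (Sum.inr d) ξ =
      (MonoidAlgebra.single (π d) (1 : 𝒪) : MonoidAlgebra 𝒪 Δ) • ξ := rfl

/-- **the family `opsB` commutes.** -/
theorem opsB_comm (k k' : J ⊕ (ZMod M)ˣ) : Commute (opsB 𝒪 π f e k) (opsB 𝒪 π f e k') := by
  refine LinearMap.ext fun ξ => ?_
  rw [Module.End.mul_apply, Module.End.mul_apply]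
  rcases k with j | d <;> rcases k' with j' | d'
  · rw [opsB_inl_apply, opsB_inl_apply, opsB_inl_apply, opsB_inl_apply, map_smul, map_smul,
      smul_comm, Hν_comm]
  · rw [opsB_inl_apply, opsB_inr_apply, opsB_inl_apply, opsB_inr_apply, map_smul, smul_comm]
  · rw [opsB_inl_apply, opsB_inr_apply, opsB_inl_apply, opsB_inr_apply, map_smul, smul_comm]
  · rw [opsB_inr_apply, opsB_inr_apply, opsB_inr_apply, opsB_inr_apply, smul_comm]

end SideB

/-! ### the operators on the side of `Γ₁(M)` -/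

section Side1

variable {M : ℕ} [NeZero M] (𝒪 : Type u) [CommRing 𝒪]
  {J : Type*} (f : J → HIdx M) (e : J → (ZMod M)ˣ)

/-- a lift of `d ∈ (ℤ/M)ˣ` to `Γ₀(M)` (the one of main's `diamondOp`). -/
def sigD (d : (ZMod M)ˣ) : Gamma0 M := (chi_surjective M d).choose

theorem chi_sigD (d : (ZMod M)ˣ) : chi M (sigD d) = d := (chi_surjective M d).choose_spec

theorem diamondHom_sigD {A : Type*} [AddCommGroup A] (d : (ZMod M)ˣ)
    (φ : Additive (Gamma1 M) →+ A) : diamondHom (sigD d) φ = diamondOp d φ := rfl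

/-- the family of operators on `Hom(Γ₁(M), 𝒪)`: twisted Hecke operators and diamonds. -/
def ops1 : J ⊕ (ZMod M)ˣ → Module.End 𝒪 (Additive (Gamma1 M) →+ 𝒪)
  | Sum.inl j =>
    (diamondLin 𝒪 𝒪 (sigD (e j))).comp
      (tau1AllLin 𝒪 𝒪 M (primeOf (f j)) (primeOf_prime (f j)))
  | Sum.inr d => diamondLin 𝒪 𝒪 (sigD d)

theorem ops1_inl_apply (j : J) (φ : Additive (Gamma1 M) →+ 𝒪) :
    ops1 𝒪 f e (Sum.inl j) φ =
      diamondOp (e j) (tau1All M (primeOf (f j)) (primeOf_prime (f j)) φ) := by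
  show diamondHom (sigD (e j)) (tau1AllLin 𝒪 𝒪 M (primeOf (f j)) (primeOf_prime (f j)) φ) = _
  rw [tau1AllLin_apply]
  rfl

theorem ops1_inr_apply (d : (ZMod M)ˣ) (φ : Additive (Gamma1 M) →+ 𝒪) :
    ops1 𝒪 f e (Sum.inr d) φ = diamondOp d φ := rfl

end Side1

/-! ### the bridge intertwines the two families -/

section Inter

variable {M : ℕ} [NeZero M] {Δ : Type v} [CommGroup Δ] [Finite Δ] (𝒪 : Type u) [CommRing 𝒪]
  (π : (ZMod M)ˣ →* Δ) {J : Type*} (f : J → HIdx M) (e : J → (ZMod M)ˣ)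
  (hκ : Function.Surjective (kap π))

/-- **the bridge intertwines `opsB` and `ops1`.** -/
theorem beta_opsB (k : J ⊕ (ZMod M)ˣ) (ξ : H1 (chiXi (xiOf 𝒪 π)) (MonoidAlgebra 𝒪 Δ)) :
    beta 𝒪 π hκ (opsB 𝒪 π f e k ξ) = ops1 𝒪 f e k (beta 𝒪 π hκ ξ) := by
  rcases k with j | d
  · have hs : (MonoidAlgebra.single (π (e j) * diaOf π (f j)) (1 : 𝒪) : MonoidAlgebra 𝒪 Δ) =
        MonoidAlgebra.single (π (e j)) (1 : 𝒪) * MonoidAlgebra.single (diaOf π (f j)) (1 : 𝒪) := by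
      rw [MonoidAlgebra.single_mul_single, one_mul]
    rw [opsB_inl_apply, ops1_inl_apply, hs, mul_smul, tau1All_beta hκ (f j) ξ]
    exact (diamondOp_beta hκ (e j) _).symm
  · rw [opsB_inr_apply, ops1_inr_apply]
    exact (diamondOp_beta hκ d ξ).symm

end Inter

/-! ### Shapiro at `π = id`: the bridge is onto, hence `ops1` commutes -/

section Id

variable {M : ℕ} [NeZero M] (𝒪 : Type u) [CommRing 𝒪]

theorem kap_id_surjective : Function.Surjective (kap (MonoidHom.id (ZMod M)ˣ)) :=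
  kap_surjective (MonoidHom.id (ZMod M)ˣ) Function.surjective_id

omit [NeZero M] in
theorem incl1_id_surjective : Function.Surjective (incl1 (MonoidHom.id (ZMod M)ˣ)) := by
  intro h
  have h1 : chi M (h : Gamma0 M) = 1 := MonoidHom.mem_ker.mp h.2
  obtain ⟨u, hu⟩ := (mem_range_incl_iff M _).mpr h1
  exact ⟨u, Subtype.ext hu⟩

omit [NeZero M] in
theorem res1_id_surjective (A : Type*) [AddCommGroup A] :
    Function.Surjective (res1 (MonoidHom.id (ZMod M)ˣ) A) := by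
  intro φ
  let E : ↥(Gamma1 M) ≃* (kap (MonoidHom.id (ZMod M)ˣ)).ker :=
    MulEquiv.ofBijective (incl1 (MonoidHom.id (ZMod M)ˣ))
      ⟨incl1_injective _, incl1_id_surjective⟩
  refine ⟨φ.comp (MonoidHom.toAdditive E.symm.toMonoidHom), ?_⟩
  refine AddMonoidHom.ext fun g' => ?_
  obtain ⟨g, rfl⟩ := Additive.ofMul.surjective g'
  rw [res1_apply]
  show φ (Additive.ofMul (E.symm (E g))) = _
  rw [MulEquiv.symm_apply_apply]

/-- **at `π = id` the bridge is onto** (and bijective): `H¹(Γ₀(M), 𝒪[(ℤ/M)ˣ]_χ) = Hom(Γ₁(M), 𝒪)`. -/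
theorem beta_id_surjective :
    Function.Surjective (beta 𝒪 (MonoidHom.id (ZMod M)ˣ) kap_id_surjective) := by
  intro φ
  obtain ⟨ψ, hψ⟩ := res1_id_surjective 𝒪 φ
  obtain ⟨ξ, hξ⟩ := (shapiro 𝒪 (kap (MonoidHom.id (ZMod M)ˣ)) kap_id_surjective).surjective ψ
  exact ⟨ξ, by rw [beta_apply, hξ, hψ]⟩

variable {J : Type*} (f : J → HIdx M) (e : J → (ZMod M)ˣ)

/-- **the twisted Hecke operators and the diamonds commute on `Hom(Γ₁(M), 𝒪)`.** -/
theorem ops1_comm (k k' : J ⊕ (ZMod M)ˣ) : Commute (ops1 𝒪 f e k) (ops1 𝒪 f e k') := by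
  refine LinearMap.ext fun φ => ?_
  obtain ⟨ξ, rfl⟩ := beta_id_surjective 𝒪 φ
  rw [Module.End.mul_apply, Module.End.mul_apply,
    ← beta_opsB 𝒪 (MonoidHom.id (ZMod M)ˣ) f e kap_id_surjective k' ξ,
    ← beta_opsB 𝒪 (MonoidHom.id (ZMod M)ˣ) f e kap_id_surjective k ξ,
    ← beta_opsB 𝒪 (MonoidHom.id (ZMod M)ˣ) f e kap_id_surjective k,
    ← beta_opsB 𝒪 (MonoidHom.id (ZMod M)ˣ) f e kap_id_surjective k']
  congr 1
  have h := opsB_comm 𝒪 (MonoidHom.id (ZMod M)ˣ) f e k k'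
  have h2 := LinearMap.congr_fun h.eq ξ
  rwa [Module.End.mul_apply, Module.End.mul_apply] at h2

/-- **`T_r T_s = T_s T_r` on `Hom(Γ₁(M), 𝒪)`**, all primes (dividing `M` or not). -/
theorem tau1All_comm (i i' : HIdx M) (φ : Additive (Gamma1 M) →+ 𝒪) :
    tau1All M (primeOf i) (primeOf_prime i) (tau1All M (primeOf i') (primeOf_prime i') φ) =
      tau1All M (primeOf i') (primeOf_prime i') (tau1All M (primeOf i) (primeOf_prime i) φ) := by
  have h := ops1_comm 𝒪 (J := HIdx M) id (fun _ => 1) (Sum.inl i) (Sum.inl i')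
  have h2 := LinearMap.congr_fun h.eq φ
  rw [Module.End.mul_apply, Module.End.mul_apply, ops1_inl_apply, ops1_inl_apply, ops1_inl_apply,
    ops1_inl_apply, diamondOp_one, diamondOp_one, diamondOp_one, diamondOp_one] at h2
  exact h2

end Id

/-! ### the bridge as a linear map over the polynomial ring -/

section Poly

variable {M : ℕ} [NeZero M] {Δ : Type v} [CommGroup Δ] [Finite Δ] (𝒪 : Type u) [CommRing 𝒪]
  (π : (ZMod M)ˣ →* Δ) {J : Type*} (f : J → HIdx M) (e : J → (ZMod M)ˣ)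
  (hκ : Function.Surjective (kap π))

/-- **the bridge, linear over `MvPolynomial (J ⊕ (ZMod M)ˣ) 𝒪`.** -/
def betaP :
    WithOps (opsB 𝒪 π f e) (opsB_comm 𝒪 π f e) →ₗ[MvPolynomial (J ⊕ (ZMod M)ˣ) 𝒪]
      WithOps (ops1 𝒪 f e) (ops1_comm 𝒪 f e) :=
  WithOps.map (beta 𝒪 π hκ) (fun k ξ => beta_opsB 𝒪 π f e hκ k ξ)

theorem betaP_apply (x : WithOps (opsB 𝒪 π f e) (opsB_comm 𝒪 π f e)) :
    WithOps.equiv (ops1 𝒪 f e) (ops1_comm 𝒪 f e) (betaP 𝒪 π f e hκ x) =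
      beta 𝒪 π hκ (WithOps.equiv (opsB 𝒪 π f e) (opsB_comm 𝒪 π f e) x) := rfl

/-- the bridge is injective as soon as no nonzero element of `𝒪` is killed by a nonzero
integer. -/
theorem betaP_injective_of (h𝒪 : ∀ n : ℕ, n ≠ 0 → ∀ a : 𝒪, n • a = 0 → a = 0) :
    Function.Injective (betaP 𝒪 π f e hκ) := by
  intro x y hxy
  apply (WithOps.equiv (opsB 𝒪 π f e) (opsB_comm 𝒪 π f e)).injective
  apply beta_injective_of hκ h𝒪
  rw [← betaP_apply, ← betaP_apply, hxy]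

/-- **the bridge is injective** (torsion-free coefficients). -/
theorem betaP_injective [IsAddTorsionFree 𝒪] : Function.Injective (betaP 𝒪 π f e hκ) :=
  betaP_injective_of 𝒪 π f e hκ fun _ hn _ h => (nsmul_eq_zero_iff_right hn).mp h

end Poly

end Fermat.Agent.S43.Hecke.Inst.BridgeOps
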