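/-
PROJECT R (S43, row 37), block L3 (Hecke modules, leader helper24), brick (B2) of `Hecke/BridgeMain`
(helper20): THE BETTI LEG OF THE ROOF.

`P = MvPolynomial (J ⊕ (ZMod M)ˣ) 𝒪`, `X1 = WithOps (ops1 𝒪 f e) _` (on `Hom(Γ₁(M), 𝒪)`),
`N = WithOps (opsB 𝒪 π f e) _` (on `H¹(Γ₀(M), 𝒪[Δ]_χ)`), `betaP : N →ₗ[P] X1` of `Inst/BridgeOps`.

* `diamondOp_smul_betaP`: for EVERY `Q : P` and `x : N`, `Q • betaP x` is fixed by the diamonds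
  `⟨d⟩`, `π d = 1` (the image of the bridge is a `P`-submodule of the `ker π`-invariants);
* `smul_mem_parabolicHoms`: the parabolic homomorphisms are stable under `P`;
* for `j₀` with `f j₀ = T_{ℓ₀}`, `ℓ₀ ≡ 1 mod M`, `e j₀ = 1`, `𝒪` a domain of characteristic zero:
  `cut_mem_parabolicHoms`: `(X (inl j₀) - C (1 + ℓ₀)) • z` is parabolic for EVERY `z : X1`
  (helper2's `Par.tau1AllLin_sub_mem`), `mul_cut_mem_parabolicHoms` (`(Q * s) • z`);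
* the two statements of the brick: `betaLeg_mem_parabolicHoms`, `betaLeg_diamondOp`.
-/
import Mathlib
import Fermat.Agent.S43.Hecke.Par
import Fermat.Agent.S43.Hecke.Inst.BridgeOps

set_option autoImplicit false

open CongruenceSubgroup Matrix.SpecialLinearGroup ModularCurve.Period
open scoped MatrixGroups BigOperators

noncomputable section

namespace Fermat.Agent.S43.Hecke.Inst.BettiLeg

open Fermat.Agent.S30.Hecke.DoubleCoset Fermat.Agent.S30.Hecke.Gamma0Cosets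
open Fermat.Agent.S48.B.Hecke.Gamma1Cosets Fermat.Agent.S48.B.Hecke.Diamond1
open Fermat.Agent.S48.B.Hecke.Parabolic1
open Fermat.Agent.S43.Hecke.Defs Fermat.Agent.S43.Hecke.Shapiro Fermat.Agent.S43.Hecke.Inst
open Fermat.Agent.S43.Hecke.Inst.Comm Fermat.Agent.S43.Hecke.Inst.Restrict1
open Fermat.Agent.S43.Hecke.Inst.BridgeOps Fermat.Agent.S43.Hecke.PolyModule

universe u v

/-! ### the image of the bridge is fixed by the diamonds of `ker π` -/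

section Diamond

variable {M : ℕ} [NeZero M] {Δ : Type v} [CommGroup Δ] [Finite Δ] (𝒪 : Type u) [CommRing 𝒪]
  (π : (ZMod M)ˣ →* Δ) {J : Type*} (f : J → HIdx M) (e : J → (ZMod M)ˣ)
  (hκ : Function.Surjective (kap π))

/-- **every `Q • betaP x` is fixed by the diamonds of `ker π`.** -/
theorem diamondOp_smul_betaP (Q : MvPolynomial (J ⊕ (ZMod M)ˣ) 𝒪)
    (x : WithOps (opsB 𝒪 π f e) (opsB_comm 𝒪 π f e)) {d : (ZMod M)ˣ} (hd : π d = 1) :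
    diamondOp d (WithOps.equiv (ops1 𝒪 f e) (ops1_comm 𝒪 f e) (Q • betaP 𝒪 π f e hκ x)) =
      WithOps.equiv (ops1 𝒪 f e) (ops1_comm 𝒪 f e) (Q • betaP 𝒪 π f e hκ x) := by
  rw [← map_smul, betaP_apply]
  exact diamondOp_beta_of_ker hκ hd _

end Diamond

/-! ### the parabolic homomorphisms -/

section Parabolic

variable {M : ℕ} [NeZero M] (𝒪 : Type u) [CommRing 𝒪]
  {J : Type*} (f : J → HIdx M) (e : J → (ZMod M)ˣ)

/-- the operators `ops1` preserve the parabolic homomorphisms. -/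
theorem ops1_mem_parabolicHoms (k : J ⊕ (ZMod M)ˣ) {φ : Additive (Gamma1 M) →+ 𝒪}
    (hφ : φ ∈ parabolicHoms 𝒪 (Gamma1 M) 𝒪) :
    ops1 𝒪 f e k φ ∈ parabolicHoms 𝒪 (Gamma1 M) 𝒪 := by
  rcases k with j | d
  · rw [ops1_inl_apply]
    exact diamondHom_isParabolicHom _ (tau1All_isParabolicHom _ hφ)
  · rw [ops1_inr_apply]
    exact diamondHom_isParabolicHom _ hφ

/-- **the parabolic homomorphisms are stable under the polynomial ring.** -/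
theorem smul_mem_parabolicHoms (Q : MvPolynomial (J ⊕ (ZMod M)ˣ) 𝒪)
    (z : WithOps (ops1 𝒪 f e) (ops1_comm 𝒪 f e))
    (hz : WithOps.equiv (ops1 𝒪 f e) (ops1_comm 𝒪 f e) z ∈ parabolicHoms 𝒪 (Gamma1 M) 𝒪) :
    WithOps.equiv (ops1 𝒪 f e) (ops1_comm 𝒪 f e) (Q • z) ∈ parabolicHoms 𝒪 (Gamma1 M) 𝒪 := by
  induction Q using MvPolynomial.induction_on generalizing z with
  | C r =>
    rw [WithOps.C_smul, map_smul]
    exact Submodule.smul_mem _ r hz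
  | add p q hp hq =>
    rw [add_smul, map_add]
    exact Submodule.add_mem _ (hp z hz) (hq z hz)
  | mul_X p k hp =>
    rw [mul_smul]
    refine hp _ ?_
    rw [WithOps.X_smul]
    exact ops1_mem_parabolicHoms 𝒪 f e k hz

omit [NeZero M] in
theorem tau1All_congr_idx {i : HIdx M} {ℓ₀ : ℕ} (hℓ₀ : ℓ₀.Prime) (hℓ₀M : ¬ ℓ₀ ∣ M)
    (hi : i = Sum.inl ⟨ℓ₀, hℓ₀, hℓ₀M⟩) (φ : Additive (Gamma1 M) →+ 𝒪) :
    tau1All M (primeOf i) (primeOf_prime i) φ = tau1All M ℓ₀ hℓ₀ φ := by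
  subst hi
  rfl

variable [IsDomain 𝒪] [CharZero 𝒪]

variable (j₀ : J) {ℓ₀ : ℕ} (hℓ₀ : ℓ₀.Prime) (hℓ₀M : ¬ ℓ₀ ∣ M)
  (hf : f j₀ = Sum.inl ⟨ℓ₀, hℓ₀, hℓ₀M⟩) (h1 : ((ℓ₀ : ℕ) : ZMod M) = 1) (he : e j₀ = 1)

include hf h1 he

/-- **`(X (inl j₀) - C (1 + ℓ₀)) • z` is parabolic for every `z`** (`ℓ₀ ≡ 1 mod M`, no twist at
`j₀`): the boundary is Eisenstein. -/
theorem cut_mem_parabolicHoms (z : WithOps (ops1 𝒪 f e) (ops1_comm 𝒪 f e)) :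
    WithOps.equiv (ops1 𝒪 f e) (ops1_comm 𝒪 f e)
        ((MvPolynomial.X (Sum.inl j₀) - MvPolynomial.C (((1 + ℓ₀ : ℕ) : 𝒪)) :
          MvPolynomial (J ⊕ (ZMod M)ˣ) 𝒪) • z) ∈ parabolicHoms 𝒪 (Gamma1 M) 𝒪 := by
  rw [sub_smul, map_sub, WithOps.X_smul, WithOps.C_smul, map_smul, ops1_inl_apply, he,
    diamondOp_one, tau1All_congr_idx 𝒪 hℓ₀ hℓ₀M hf, ← tau1AllLin_apply 𝒪 𝒪]
  exact Fermat.Agent.S43.Hecke.Par.tau1AllLin_sub_mem 𝒪 𝒪 hℓ₀ h1 _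

/-- the same for every multiple of the cutting element. -/
theorem mul_cut_mem_parabolicHoms (Q : MvPolynomial (J ⊕ (ZMod M)ˣ) 𝒪)
    (z : WithOps (ops1 𝒪 f e) (ops1_comm 𝒪 f e)) :
    WithOps.equiv (ops1 𝒪 f e) (ops1_comm 𝒪 f e)
        ((Q * (MvPolynomial.X (Sum.inl j₀) - MvPolynomial.C (((1 + ℓ₀ : ℕ) : 𝒪)))) • z) ∈
      parabolicHoms 𝒪 (Gamma1 M) 𝒪 := by
  rw [mul_smul]
  exact smul_mem_parabolicHoms 𝒪 f e Q _ (cut_mem_parabolicHoms 𝒪 f e j₀ hℓ₀ hℓ₀M hf h1 he z)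

end Parabolic

/-! ### the two statements of the brick -/

section Leg

variable {M : ℕ} [NeZero M] {Δ : Type v} [CommGroup Δ] [Finite Δ] (𝒪 : Type u) [CommRing 𝒪]
  [IsDomain 𝒪] [CharZero 𝒪]
  (π : (ZMod M)ˣ →* Δ) {J : Type*} (f : J → HIdx M) (e : J → (ZMod M)ˣ)
  (hκ : Function.Surjective (kap π))
  (j₀ : J) {ℓ₀ : ℕ} (hℓ₀ : ℓ₀.Prime) (hℓ₀M : ¬ ℓ₀ ∣ M)
  (hf : f j₀ = Sum.inl ⟨ℓ₀, hℓ₀, hℓ₀M⟩) (h1 : ((ℓ₀ : ℕ) : ZMod M) = 1) (he : e j₀ = 1)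

include hf h1 he in
/-- **(B2), first half**: `(X (inl j₀) - C (1 + ℓ₀)) • betaP x` is a parabolic homomorphism. -/
theorem betaLeg_mem_parabolicHoms (x : WithOps (opsB 𝒪 π f e) (opsB_comm 𝒪 π f e)) :
    WithOps.equiv (ops1 𝒪 f e) (ops1_comm 𝒪 f e)
        ((MvPolynomial.X (Sum.inl j₀) - MvPolynomial.C (((1 + ℓ₀ : ℕ) : 𝒪)) :
          MvPolynomial (J ⊕ (ZMod M)ˣ) 𝒪) • betaP 𝒪 π f e hκ x) ∈
      parabolicHoms 𝒪 (Gamma1 M) 𝒪 :=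
  cut_mem_parabolicHoms 𝒪 f e j₀ hℓ₀ hℓ₀M hf h1 he _

omit [IsDomain 𝒪] [CharZero 𝒪] in
/-- **(B2), second half**: it is fixed by the diamonds of `ker π`. -/
theorem betaLeg_diamondOp (x : WithOps (opsB 𝒪 π f e) (opsB_comm 𝒪 π f e)) {d : (ZMod M)ˣ}
    (hd : π d = 1) :
    diamondOp d (WithOps.equiv (ops1 𝒪 f e) (ops1_comm 𝒪 f e)
        ((MvPolynomial.X (Sum.inl j₀) - MvPolynomial.C (((1 + ℓ₀ : ℕ) : 𝒪)) :
          MvPolynomial (J ⊕ (ZMod M)ˣ) 𝒪) • betaP 𝒪 π f e hκ x)) =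
      WithOps.equiv (ops1 𝒪 f e) (ops1_comm 𝒪 f e)
        ((MvPolynomial.X (Sum.inl j₀) - MvPolynomial.C (((1 + ℓ₀ : ℕ) : 𝒪)) :
          MvPolynomial (J ⊕ (ZMod M)ˣ) 𝒪) • betaP 𝒪 π f e hκ x) :=
  diamondOp_smul_betaP 𝒪 π f e hκ _ x hd

end Leg

end Fermat.Agent.S43.Hecke.Inst.BettiLeg
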