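/-
PROJECT R (S43, row 37), block L3 (Hecke modules, leader helper24), brick H6 (helper20),
commutation with trivial coefficients: the operators `tauAll M r` of main
(`S30/Hecke/Gamma0Cosets`) commute on `Hom(Γ₀(M), A)`, `A` any abelian group.

Same method as `Inst/Comm` (composite coset data, separation of the products of the upper
triangular representatives, the explicit swap), with main's independence of the representatives
`CosetData.heckeHom_eq_of_reps` in place of its nebentypus twin.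
-/
import Mathlib
import Fermat.Agent.S43.Hecke.Inst.Comm

set_option autoImplicit false

open CongruenceSubgroup Matrix.SpecialLinearGroup
open scoped MatrixGroups BigOperators

noncomputable section

namespace Fermat.Agent.S43.Hecke.Inst.CommHom

open Fermat.Agent.S30.Hecke.DoubleCoset Fermat.Agent.S30.Hecke.Gamma0Cosets
open Fermat.Agent.S43.Hecke.Inst.Compose Fermat.Agent.S43.Hecke.Inst.Comm

/-! ### the abstract criterion -/

section Abstract

variable {Γ : Type*} [Group Γ] {G : Type*} [Group G] {ι : Γ →* G}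
  {X₁ X₂ : Type*} [Fintype X₁] [Fintype X₂] (D₁ : CosetData ι X₁) (D₂ : CosetData ι X₂)
  {A : Type*} [AddCommGroup A]

/-- the operator of the composite datum is the composite. -/
theorem heckeHom_compData (φ : Additive Γ →+ A) :
    (compData D₁ D₂).heckeHom φ = D₁.heckeHom (D₂.heckeHom φ) := by
  refine AddMonoidHom.ext fun g' => ?_
  obtain ⟨g, rfl⟩ := Additive.ofMul.surjective g'
  rw [CosetData.heckeHom_apply, CosetData.heckeHom_apply, Fintype.sum_prod_type]
  refine Finset.sum_congr rfl fun x _ => ?_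
  rw [CosetData.heckeHom_apply]
  rfl

/-- the counting form of the independence of the representatives. -/
theorem heckeHom_eq_of_exists {X X' : Type*} [Fintype X] [Fintype X'] (D : CosetData ι X)
    (D' : CosetData ι X') (hι : Function.Injective ι)
    (hsep : ∀ (x x' : X) (g : Γ), D.rep x = ι g * D.rep x' → x = x')
    (hsep' : ∀ (x x' : X') (g : Γ), D'.rep x = ι g * D'.rep x' → x = x')
    (hcard : Fintype.card X = Fintype.card X')
    (hex : ∀ x : X, ∃ (x' : X') (t : Γ), D'.rep x' = ι t * D.rep x) :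
    (D'.heckeHom : (Additive Γ →+ A) →+ (Additive Γ →+ A)) = D.heckeHom := by
  classical
  choose e₀ t ht using hex
  have hinj : Function.Injective e₀ := by
    intro x₁ x₂ h
    refine hsep x₁ x₂ ((t x₁)⁻¹ * t x₂) ?_
    have h1 := ht x₁
    have h2 := ht x₂
    rw [h, h2] at h1
    rw [map_mul, map_inv, mul_assoc, h1, inv_mul_cancel_left]
  have hbij : Function.Bijective e₀ :=
    (Fintype.bijective_iff_injective_and_card e₀).mpr ⟨hinj, hcard⟩
  exact CosetData.heckeHom_eq_of_reps D D' hι hsep' (Equiv.ofBijective e₀ hbij) t ht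

/-- **commutation of two double-coset operators on `Hom(Γ, A)`.** -/
theorem heckeHom_comm_of_exists (hι : Function.Injective ι)
    (hsep : ∀ (z z' : X₁ × X₂) (g : Γ),
      D₂.rep z.2 * D₁.rep z.1 = ι g * (D₂.rep z'.2 * D₁.rep z'.1) → z = z')
    (hsep' : ∀ (z z' : X₂ × X₁) (g : Γ),
      D₁.rep z.2 * D₂.rep z.1 = ι g * (D₁.rep z'.2 * D₂.rep z'.1) → z = z')
    (hex : ∀ (x : X₁) (y : X₂), ∃ (x' : X₁) (y' : X₂) (t : Γ),
      D₁.rep x' * D₂.rep y' = ι t * (D₂.rep y * D₁.rep x))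
    (φ : Additive Γ →+ A) :
    D₁.heckeHom (D₂.heckeHom φ) = D₂.heckeHom (D₁.heckeHom φ) := by
  rw [← heckeHom_compData, ← heckeHom_compData]
  refine (congrArg (fun f : (Additive Γ →+ A) →+ (Additive Γ →+ A) => f φ)
    (heckeHom_eq_of_exists (compData D₁ D₂) (compData D₂ D₁) hι hsep hsep' ?_ ?_)).symm
  · rw [Fintype.card_prod, Fintype.card_prod, mul_comm]
  · rintro ⟨x, y⟩
    obtain ⟨x', y', t, h⟩ := hex x y
    exact ⟨(y', x'), t, h⟩

end Abstract

/-! ### the operators of main -/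

section Main

variable {M : ℕ} {A : Type*} [AddCommGroup A]

/-- `T_r T_s = T_s T_r` on `Hom(Γ₀(M), A)`. -/
theorem tauT_comm {r s : ℕ} (hr : r.Prime) (hrM : ¬ r ∣ M) (hs : s.Prime) (hsM : ¬ s ∣ M)
    (φ : Additive (Gamma0 M) →+ A) :
    tauT hr hrM (tauT hs hsM φ) = tauT hs hsM (tauT hr hrM φ) := by
  by_cases hne : r = s
  · subst hne
    rfl
  refine heckeHom_comm_of_exists (cosetT hr hrM) (cosetT hs hsM) (iota_injective M) ?_ ?_ ?_ φ
  · rintro ⟨x, y⟩ ⟨x', y'⟩ g h
    obtain ⟨h1, h2⟩ := repT_prod_sep hs hr (Ne.symm hne) y y' x x' g h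
    rw [h1, h2]
  · rintro ⟨y, x⟩ ⟨y', x'⟩ g h
    obtain ⟨h1, h2⟩ := repT_prod_sep hr hs hne x x' y y' g h
    rw [h1, h2]
  · intro x y
    obtain ⟨x', y', t, h, -, -⟩ := exists_swapZ hr hs hne x y
    exact ⟨x', y', upG M t, repT_swap hr.ne_zero hs.ne_zero h⟩

/-- `T_r U_q = U_q T_r` on `Hom(Γ₀(M), A)`. -/
theorem tauT_tauU_comm {r q : ℕ} (hr : r.Prime) (hrM : ¬ r ∣ M) (hq : q.Prime) (hqM : q ∣ M)
    (φ : Additive (Gamma0 M) →+ A) :
    tauT hr hrM (tauU hq hqM φ) = tauU hq hqM (tauT hr hrM φ) := by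
  have hne : r ≠ q := by
    rintro rfl
    exact hrM hqM
  refine heckeHom_comm_of_exists (cosetT hr hrM) (cosetU hq hqM) (iota_injective M) ?_ ?_ ?_ φ
  · rintro ⟨x, k⟩ ⟨x', k'⟩ g h
    obtain ⟨h1, h2⟩ := repT_prod_sep hq hr (Ne.symm hne) (some k) (some k') x x' g h
    rw [Option.some_injective _ h1, h2]
  · rintro ⟨k, x⟩ ⟨k', x'⟩ g h
    obtain ⟨h1, h2⟩ := repT_prod_sep hr hq hne x x' (some k) (some k') g h
    rw [h1, Option.some_injective _ h2]
  · intro x k
    obtain ⟨x', y', t, h, -, hy⟩ := exists_swapZ hr hq hne x (some k)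
    obtain ⟨k', rfl⟩ := Option.isSome_iff_exists.mp hy
    exact ⟨x', k', upG M t, repT_swap hr.ne_zero hq.ne_zero h⟩

/-- `U_q U_q' = U_q' U_q` on `Hom(Γ₀(M), A)`. -/
theorem tauU_comm {q q' : ℕ} (hq : q.Prime) (hqM : q ∣ M) (hq' : q'.Prime) (hqM' : q' ∣ M)
    (φ : Additive (Gamma0 M) →+ A) :
    tauU hq hqM (tauU hq' hqM' φ) = tauU hq' hqM' (tauU hq hqM φ) := by
  by_cases hne : q = q'
  · subst hne
    rfl
  refine heckeHom_comm_of_exists (cosetU hq hqM) (cosetU hq' hqM') (iota_injective M) ?_ ?_ ?_ φ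
  · rintro ⟨j, k⟩ ⟨j', k'⟩ g h
    obtain ⟨h1, h2⟩ :=
      repT_prod_sep hq' hq (Ne.symm hne) (some k) (some k') (some j) (some j') g h
    rw [Option.some_injective _ h1, Option.some_injective _ h2]
  · rintro ⟨k, j⟩ ⟨k', j'⟩ g h
    obtain ⟨h1, h2⟩ := repT_prod_sep hq hq' hne (some j) (some j') (some k) (some k') g h
    rw [Option.some_injective _ h1, Option.some_injective _ h2]
  · intro j k
    obtain ⟨x', y', t, h, hx, hy⟩ := exists_swapZ hq hq' hne (some j) (some k)
    obtain ⟨j', rfl⟩ := Option.isSome_iff_exists.mp hx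
    obtain ⟨k', rfl⟩ := Option.isSome_iff_exists.mp hy
    exact ⟨j', k', upG M t, repT_swap hq.ne_zero hq'.ne_zero h⟩

/-- **all the operators `tauAll M r` commute on `Hom(Γ₀(M), A)`.** -/
theorem tauAll_comm {r s : ℕ} (hr : r.Prime) (hs : s.Prime) (φ : Additive (Gamma0 M) →+ A) :
    tauAll M r hr (tauAll M s hs φ) = tauAll M s hs (tauAll M r hr φ) := by
  unfold tauAll
  by_cases h1 : r ∣ M <;> by_cases h2 : s ∣ M
  · rw [dif_pos h1, dif_pos h2]
    exact tauU_comm hr h1 hs h2 φ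
  · rw [dif_pos h1, dif_neg h2]
    exact (tauT_tauU_comm hs h2 hr h1 φ).symm
  · rw [dif_neg h1, dif_pos h2]
    exact tauT_tauU_comm hr h1 hs h2 φ
  · rw [dif_neg h1, dif_neg h2]
    exact tauT_comm hr h1 hs h2 φ

end Main

end Fermat.Agent.S43.Hecke.Inst.CommHom
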